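import Fermat.Agent.LT.T3.H681.SatakeSph

/-!
# Row LT, tower T3, asset (helper681), OFF-MAIN -- part 6: bridge B1 (inert place)

Bridge B1 of hint #18148 (helper797) between the T6 base change of spherical functions and the
T3 pair relation.  `w` a finite place of `K'`, `v` a finite place of `K`, `N w = (N v)^l`
(`w | v` unramified of residue degree `l`), `φ, f` dominant with `T6.IsBC l (N v) φ f`:

    bc_pair681 : HasSatakeEigen w (fun g => φ (cartan g)) A →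
        IsSatakePair v (fun g => f (cartan g)) (bcCoef681 l A),

`bcCoef681 l A (m₁, m₂) = A (m₁ / l, m₂ / l)` if `l ∣ m₁, m₂` and `0` otherwise: the whole T3 pair
relation downstairs (`n_int` AND `eigen`) from the EIGEN field upstairs.
-/

set_option autoImplicit false
set_option linter.unusedSectionVars false

open scoped Classical

open IsDedekindDomain NumberField MeasureTheory

noncomputable section

namespace Fermat.Agent.LT.T3.H681

open Fermat.Agent.LT.T6 Fermat.Agent.LT.T6.H305 Fermat.Agent.LT.T3.AS Fermat.Agent.LT.T3.H263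

/-- `A_v(m) = A_w(m / l)`. -/
def bcCoef681 (l : ℕ) (A : ℤ × ℤ → ℂ) (m : ℤ × ℤ) : ℂ :=
  if (l : ℤ) ∣ m.1 ∧ (l : ℤ) ∣ m.2 then A (m.1 / (l : ℤ), m.2 / (l : ℤ)) else 0

theorem bcCoef_mul681 (l : ℕ) (hl : 0 < l) (A : ℤ × ℤ → ℂ) (m : ℤ × ℤ) :
    bcCoef681 l A ((l : ℤ) * m.1, (l : ℤ) * m.2) = A m := by
  have hl0 : (l : ℤ) ≠ 0 := by exact_mod_cast hl.ne'
  unfold bcCoef681
  rw [if_pos ⟨dvd_mul_right _ _, dvd_mul_right _ _⟩, Int.mul_ediv_cancel_left _ hl0,
    Int.mul_ediv_cancel_left _ hl0]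

theorem bcCoef_support681 (l : ℕ) (A : ℤ × ℤ → ℂ) (m : ℤ × ℤ) (hm : bcCoef681 l A m ≠ 0) :
    ∃ m' : ℤ × ℤ, A m' ≠ 0 ∧ m = ((l : ℤ) * m'.1, (l : ℤ) * m'.2) := by
  unfold bcCoef681 at hm
  by_cases hc : (l : ℤ) ∣ m.1 ∧ (l : ℤ) ∣ m.2
  · rw [if_pos hc] at hm
    refine ⟨(m.1 / (l : ℤ), m.2 / (l : ℤ)), hm, ?_⟩
    ext
    · exact (Int.mul_ediv_cancel' hc.1).symm
    · exact (Int.mul_ediv_cancel' hc.2).symm
  · rw [if_neg hc] at hm
    exact absurd rfl hm

theorem bcCoef_fin681 (l : ℕ) (A : ℤ × ℤ → ℂ) (hA : (Function.support A).Finite) :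
    (Function.support (bcCoef681 l A)).Finite := by
  refine (hA.image (fun m : ℤ × ℤ => ((l : ℤ) * m.1, (l : ℤ) * m.2))).subset ?_
  intro m hm
  rw [Function.mem_support] at hm
  obtain ⟨m', hm', rfl⟩ := bcCoef_support681 l A m hm
  exact ⟨m', hm', rfl⟩

/-- The Laurent polynomial of `bcCoef681 l A` is the one of `A` at `(z₁^l, z₂^l)`. -/
theorem laurent_bcCoef681 (l : ℕ) (hl : 0 < l) (A : ℤ × ℤ → ℂ) (z₁ z₂ : ℂ) :
    laurent (bcCoef681 l A) z₁ z₂ = laurent A (z₁ ^ l) (z₂ ^ l) := by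
  have hl0 : (l : ℤ) ≠ 0 := by exact_mod_cast hl.ne'
  have hinj : Function.Injective (fun m : ℤ × ℤ => ((l : ℤ) * m.1, (l : ℤ) * m.2)) := by
    intro m m' h
    simp only [Prod.mk.injEq] at h
    ext
    · exact mul_left_cancel₀ hl0 h.1
    · exact mul_left_cancel₀ hl0 h.2
  have hsub : Function.support (fun m : ℤ × ℤ => bcCoef681 l A m * z₁ ^ m.1 * z₂ ^ m.2)
      ⊆ Set.range (fun m : ℤ × ℤ => ((l : ℤ) * m.1, (l : ℤ) * m.2)) := by
    intro m hm
    rw [Function.mem_support] at hm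
    have h0 : bcCoef681 l A m ≠ 0 := by
      intro h
      apply hm
      rw [h, zero_mul, zero_mul]
    obtain ⟨m', _, rfl⟩ := bcCoef_support681 l A m h0
    exact ⟨m', rfl⟩
  unfold laurent
  rw [← Set.indicator_eq_self.2 hsub, ← finsum_mem_def, finsum_mem_range hinj]
  refine finsum_congr (fun m => ?_)
  simp only
  rw [bcCoef_mul681 l hl A m, zpow_mul, zpow_mul, zpow_natCast, zpow_natCast]

section Pair

variable {K K' : Type} [Field K] [NumberField K] [Field K'] [NumberField K']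

theorem sph_biIntInv681 (v : HeightOneSpectrum (𝓞 K)) (f : (ℤ × ℤ) →₀ ℂ) :
    IsBiIntInv v (fun g => f (cartan g)) := by
  intro κ κ' g hκ hκ'
  show f (cartan (κ * g * κ')) = f (cartan g)
  rw [cartan_mul_right681 _ κ' ((isIntGL_iff263 v κ').1 hκ'),
    cartan_mul_left681 κ g ((isIntGL_iff263 v κ).1 hκ)]

theorem sph_isRepSys681 (v : HeightOneSpectrum (𝓞 K)) (f : (ℤ × ℤ) →₀ ℂ) (hf : IsDominant f) :
    ∃ R : Finset (GL (Fin 2) (v.adicCompletion K)), IsRepSys v (fun g => f (cartan g)) R := by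
  obtain ⟨D, _⟩ := exists_resData (Fermat.Agent.LT.T6.H176.instLocalC176 K v)
  exact ⟨sphSys681 D f, (isRepSys_iff263 v _ _).2 (sph_rep681 D f hf)⟩

/-- The Satake transform (T6 form) of a spherical function with a T3 eigen relation is the
Laurent polynomial of the coefficients. -/
theorem sph_sum_eq_laurent681 (w : HeightOneSpectrum (𝓞 K')) (φ : (ℤ × ℤ) →₀ ℂ)
    (hφ : IsDominant φ) (A : ℤ × ℤ → ℂ) (hpair : HasSatakeEigen w (fun g => φ (cartan g)) A)
    (x y : ℂ) (hx : x ≠ 0) (hy : y ≠ 0) :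
    (φ.sum fun lam c => c * satake (Ideal.absNorm w.asIdeal) lam x y) = laurent A x y := by
  obtain ⟨Φ', hΦ', h1⟩ := exists_locEigen681 K' w x y hx hy
  obtain ⟨R', hR'⟩ := sph_isRepSys681 w φ hφ
  have e1 := hpair Φ' _ _ x y hΦ' rfl rfl (mul_ne_zero hx hy) R' hR' 1
  have e2 := sph_acts681 w φ hφ hΦ' rfl rfl (mul_ne_zero hx hy) R' hR' 1
  rw [e1, h1, mul_one, mul_one] at e2
  exact e2.symm

/-- **Bridge B1 (inert place).** -/
theorem bc_pair681 (v : HeightOneSpectrum (𝓞 K)) (w : HeightOneSpectrum (𝓞 K')) (l : ℕ)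
    (hl : 0 < l) (hq : Ideal.absNorm w.asIdeal = Ideal.absNorm v.asIdeal ^ l)
    (φ f : (ℤ × ℤ) →₀ ℂ) (hφ : IsDominant φ) (hf : IsDominant f)
    (hbc : IsBC l (Ideal.absNorm v.asIdeal) φ f)
    (A : ℤ × ℤ → ℂ) (hA : (Function.support A).Finite)
    (hpair : HasSatakeEigen w (fun g => φ (cartan g)) A) :
    IsSatakePair v (fun g => f (cartan g)) (bcCoef681 l A) := by
  refine satakeInj681 v _ _ (bcCoef_fin681 l A hA) (sph_biIntInv681 v f)
    (sph_isRepSys681 v f hf) ?_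
  intro Φ₀ a b z₁ z₂ hΦ hz₁ hz₂ hb R hR y
  have hz₁0 : z₁ ≠ 0 := by
    intro h
    apply hb
    rw [← hz₂, h, zero_mul]
  have hz₂0 : z₂ ≠ 0 := by
    intro h
    apply hb
    rw [← hz₂, h, mul_zero]
  rw [sph_acts681 v f hf hΦ hz₁ hz₂ hb R hR y, hbc z₁ z₂ hz₁0 hz₂0, ← hq,
    sph_sum_eq_laurent681 w φ hφ A hpair (z₁ ^ l) (z₂ ^ l) (pow_ne_zero _ hz₁0)
      (pow_ne_zero _ hz₂0), laurent_bcCoef681 l hl A z₁ z₂]

/-- B1 in the T3 vocabulary only: ANY bi-invariant upstairs function of finite support with the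
eigen relation for `A`, base change `f` of its Cartan form. -/
theorem bc_pair_of_biinv681 (v : HeightOneSpectrum (𝓞 K)) (w : HeightOneSpectrum (𝓞 K'))
    (l : ℕ) (hl : 0 < l) (hq : Ideal.absNorm w.asIdeal = Ideal.absNorm v.asIdeal ^ l)
    (f₀ : GL (Fin 2) (w.adicCompletion K') → ℂ) (A : ℤ × ℤ → ℂ)
    (hA : (Function.support A).Finite) (hbi : IsBiIntInv w f₀)
    (hrep : ∃ R : Finset (GL (Fin 2) (w.adicCompletion K')), IsRepSys w f₀ R)
    (he : HasSatakeEigen w f₀ A) :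
    ∃ φ : (ℤ × ℤ) →₀ ℂ, IsDominant φ ∧ f₀ = (fun g => φ (cartan g)) ∧
      ∀ f : (ℤ × ℤ) →₀ ℂ, IsDominant f → IsBC l (Ideal.absNorm v.asIdeal) φ f →
        IsSatakePair v (fun g => f (cartan g)) (bcCoef681 l A) := by
  obtain ⟨D, _⟩ := exists_resData (Fermat.Agent.LT.T6.H176.instLocalC176 K' w)
  obtain ⟨R, hR⟩ := hrep
  have h1K : IsIntGL w (1 : GL (Fin 2) (w.adicCompletion K')) := (isIntGL_iff263 w 1).2 inK_one
  have hli : IsLInv263 f₀ := by
    intro u g hu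
    have := hbi u 1 g ((isIntGL_iff263 w u).2 hu) h1K
    rwa [mul_one] at this
  have hri : IsRInv263 f₀ := by
    intro u g hu
    have := hbi 1 u g h1K ((isIntGL_iff263 w u).2 hu)
    rwa [one_mul] at this
  obtain ⟨φ, hφ, e⟩ := exists_sph_of_biinv681 D hli hri R ((isRepSys_iff263 w f₀ R).1 hR)
  refine ⟨φ, hφ, e, fun f hf hbc => ?_⟩
  rw [e] at he
  exact bc_pair681 v w l hl hq φ f hφ hf hbc A hA he

end Pair

end Fermat.Agent.LT.T3.H681

end
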