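import Fermat.Agent.LT.T3.H681.SatakeConv

/-!
# Row LT, tower T3, asset (helper681), OFF-MAIN -- part 8: bridge B2, `l`-fold form

* `convCoef681 A₁ A₂` : the convolution `(A₁ * A₂)(m) = ∑_{m'} A₁(m') A₂(m - m')` on `ℤ²`;
  `laurent_convCoef681` : its Laurent polynomial is the product; `convCoef_fin681`.
* `conv_pair_coef681` : `IsSatakePair v χ (convCoef681 A₁ A₂)` for `χ = φ * ψ` (`T6.IsConv`).
* `convIter681 A m = A 0 * A 1 * ⋯ * A m`, and the `l`-fold form

      convProd_pair681 : 0 < l → (∀ j < l, IsSatakePair v (φ j) (A j)) →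
        (∀ j < l, (Function.support (A j)).Finite) → T6.IsConvProd (InU 0) l φ f →
        IsSatakePair v f (convIter681 A (l - 1)).
-/

set_option autoImplicit false
set_option linter.unusedSectionVars false

open scoped Classical

open IsDedekindDomain NumberField MeasureTheory

noncomputable section

namespace Fermat.Agent.LT.T3.H681

open Fermat.Agent.LT.T6 Fermat.Agent.LT.T6.H305 Fermat.Agent.LT.T3.AS Fermat.Agent.LT.T3.H263

/-- The convolution on `ℤ²`. -/
def convCoef681 (A₁ A₂ : ℤ × ℤ → ℂ) (m : ℤ × ℤ) : ℂ := ∑ᶠ m' : ℤ × ℤ, A₁ m' * A₂ (m - m')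

theorem convCoef_eq_sum681 (A₁ A₂ : ℤ × ℤ → ℂ) (hA₁ : (Function.support A₁).Finite)
    (m : ℤ × ℤ) : convCoef681 A₁ A₂ m = ∑ m' ∈ hA₁.toFinset, A₁ m' * A₂ (m - m') := by
  unfold convCoef681
  refine finsum_eq_sum_of_support_subset _ ?_
  intro m' hm'
  rw [Function.mem_support] at hm'
  rw [Finset.mem_coe, Set.Finite.mem_toFinset, Function.mem_support]
  exact left_ne_zero_of_mul hm'

theorem convCoef_support681 (A₁ A₂ : ℤ × ℤ → ℂ) (hA₁ : (Function.support A₁).Finite)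
    (hA₂ : (Function.support A₂).Finite) (m : ℤ × ℤ) (hm : convCoef681 A₁ A₂ m ≠ 0) :
    m ∈ Finset.image₂ (fun a b : ℤ × ℤ => a + b) hA₁.toFinset hA₂.toFinset := by
  rw [convCoef_eq_sum681 A₁ A₂ hA₁ m] at hm
  obtain ⟨m', hm', hne⟩ := Finset.exists_ne_zero_of_sum_ne_zero hm
  rw [Finset.mem_image₂]
  refine ⟨m', hm', m - m', ?_, by simp⟩
  rw [Set.Finite.mem_toFinset, Function.mem_support]
  exact right_ne_zero_of_mul hne

theorem convCoef_fin681 (A₁ A₂ : ℤ × ℤ → ℂ) (hA₁ : (Function.support A₁).Finite)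
    (hA₂ : (Function.support A₂).Finite) : (Function.support (convCoef681 A₁ A₂)).Finite := by
  refine (Finset.finite_toSet
    (Finset.image₂ (fun a b : ℤ × ℤ => a + b) hA₁.toFinset hA₂.toFinset)).subset ?_
  intro m hm
  rw [Function.mem_support] at hm
  exact convCoef_support681 A₁ A₂ hA₁ hA₂ m hm

theorem laurent_eq_sum681 (A : ℤ × ℤ → ℂ) (z₁ z₂ : ℂ) (S : Finset (ℤ × ℤ))
    (hS : ∀ m, A m ≠ 0 → m ∈ S) :
    laurent A z₁ z₂ = ∑ m ∈ S, A m * z₁ ^ m.1 * z₂ ^ m.2 := by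
  unfold laurent
  refine finsum_eq_sum_of_support_subset _ ?_
  intro m hm
  rw [Function.mem_support] at hm
  rw [Finset.mem_coe]
  apply hS
  intro h0
  apply hm
  rw [h0, zero_mul, zero_mul]

/-- The Laurent polynomial of a convolution is the product. -/
theorem laurent_convCoef681 (A₁ A₂ : ℤ × ℤ → ℂ) (hA₁ : (Function.support A₁).Finite)
    (hA₂ : (Function.support A₂).Finite) (z₁ z₂ : ℂ) (hz₁ : z₁ ≠ 0) (hz₂ : z₂ ≠ 0) :
    laurent (convCoef681 A₁ A₂) z₁ z₂ = laurent A₁ z₁ z₂ * laurent A₂ z₁ z₂ := by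
  set S₁ := hA₁.toFinset with hS₁
  set S₂ := hA₂.toFinset with hS₂
  set S := Finset.image₂ (fun a b : ℤ × ℤ => a + b) S₁ S₂ with hS
  have m₁ : ∀ m, A₁ m ≠ 0 → m ∈ S₁ := by
    intro m hm
    rw [hS₁, Set.Finite.mem_toFinset, Function.mem_support]
    exact hm
  have m₂ : ∀ m, A₂ m ≠ 0 → m ∈ S₂ := by
    intro m hm
    rw [hS₂, Set.Finite.mem_toFinset, Function.mem_support]
    exact hm
  rw [laurent_eq_sum681 _ z₁ z₂ S (convCoef_support681 A₁ A₂ hA₁ hA₂),
    laurent_eq_sum681 A₁ z₁ z₂ S₁ m₁, laurent_eq_sum681 A₂ z₁ z₂ S₂ m₂]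
  have step : ∀ m ∈ S, convCoef681 A₁ A₂ m * z₁ ^ m.1 * z₂ ^ m.2
      = ∑ m' ∈ S₁, A₁ m' * (A₂ (m - m') * z₁ ^ m.1 * z₂ ^ m.2) := by
    intro m _
    rw [convCoef_eq_sum681 A₁ A₂ hA₁ m, Finset.sum_mul, Finset.sum_mul]
    refine Finset.sum_congr rfl (fun m' _ => ?_)
    ring
  rw [Finset.sum_congr rfl step, Finset.sum_comm, Finset.sum_mul]
  refine Finset.sum_congr rfl (fun m' hm' => ?_)
  have inner : ∑ m ∈ S, A₂ (m - m') * z₁ ^ m.1 * z₂ ^ m.2
      = z₁ ^ m'.1 * z₂ ^ m'.2 * ∑ m'' ∈ S₂, A₂ m'' * z₁ ^ m''.1 * z₂ ^ m''.2 := by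
    have hsub : S₂.image (fun m'' => m'' + m') ⊆ S := by
      intro m hm
      obtain ⟨m'', hm'', rfl⟩ := Finset.mem_image.1 hm
      rw [hS, Finset.mem_image₂]
      exact ⟨m', hm', m'', hm'', add_comm _ _⟩
    rw [← Finset.sum_subset hsub, Finset.sum_image, Finset.mul_sum]
    · refine Finset.sum_congr rfl (fun m'' _ => ?_)
      rw [add_sub_cancel_right, Prod.fst_add, Prod.snd_add, zpow_add₀ hz₁, zpow_add₀ hz₂]
      ring
    · intro a _ b _ h
      exact add_right_cancel h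
    · intro m _ hm
      have h0 : A₂ (m - m') = 0 := by
        by_contra hne
        apply hm
        rw [Finset.mem_image]
        exact ⟨m - m', m₂ _ hne, by simp⟩
      rw [h0, zero_mul, zero_mul]
  rw [← Finset.mul_sum, inner]
  ring

section Pair

variable {K : Type} [Field K] [NumberField K] (v : HeightOneSpectrum (𝓞 K))

/-- Bridge B2 with the explicit convolution of the coefficients. -/
theorem conv_pair_coef681 (φ ψ χ : GL (Fin 2) (v.adicCompletion K) → ℂ) (A₁ A₂ : ℤ × ℤ → ℂ)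
    (hA₁ : (Function.support A₁).Finite) (hA₂ : (Function.support A₂).Finite)
    (hφ : IsBiIntInv v φ) (hφrep : ∃ R, IsRepSys v φ R) (hφe : HasSatakeEigen v φ A₁)
    (hψ : IsBiIntInv v ψ) (hψrep : ∃ R, IsRepSys v ψ R) (hψe : HasSatakeEigen v ψ A₂)
    (hconv : IsConv (InU 0) φ ψ χ) : IsSatakePair v χ (convCoef681 A₁ A₂) :=
  conv_pair681 v φ ψ χ A₁ A₂ _ (convCoef_fin681 A₁ A₂ hA₁ hA₂) hφ hφrep hφe hψ hψrep hψe hconv
    (fun z₁ z₂ hz₁ hz₂ => laurent_convCoef681 A₁ A₂ hA₁ hA₂ z₁ z₂ hz₁ hz₂)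

/-- `A 0 * A 1 * ⋯ * A m`. -/
def convIter681 (A : ℕ → ℤ × ℤ → ℂ) : ℕ → ℤ × ℤ → ℂ
  | 0 => A 0
  | (m + 1) => convCoef681 (convIter681 A m) (A (m + 1))

theorem convIter_zero681 (A : ℕ → ℤ × ℤ → ℂ) : convIter681 A 0 = A 0 := by
  rw [convIter681]

theorem convIter_succ681 (A : ℕ → ℤ × ℤ → ℂ) (m : ℕ) :
    convIter681 A (m + 1) = convCoef681 (convIter681 A m) (A (m + 1)) := by
  rw [convIter681]

theorem convIter_fin681 (A : ℕ → ℤ × ℤ → ℂ) (l : ℕ)
    (hA : ∀ j < l, (Function.support (A j)).Finite) :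
    ∀ m < l, (Function.support (convIter681 A m)).Finite := by
  intro m
  induction m with
  | zero =>
    intro h
    rw [convIter_zero681]
    exact hA 0 h
  | succ m ih =>
    intro h
    rw [convIter_succ681]
    exact convCoef_fin681 _ _ (ih (by omega)) (hA (m + 1) h)

/-- The Laurent polynomial of the iterated convolution is the product. -/
theorem laurent_convIter681 (A : ℕ → ℤ × ℤ → ℂ) (l : ℕ)
    (hA : ∀ j < l, (Function.support (A j)).Finite) (z₁ z₂ : ℂ) (hz₁ : z₁ ≠ 0) (hz₂ : z₂ ≠ 0) :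
    ∀ m < l, laurent (convIter681 A m) z₁ z₂
      = ∏ j ∈ Finset.range (m + 1), laurent (A j) z₁ z₂ := by
  intro m
  induction m with
  | zero =>
    intro _
    rw [convIter_zero681]
    simp
  | succ m ih =>
    intro h
    rw [convIter_succ681, laurent_convCoef681 _ _ (convIter_fin681 A l hA m (by omega))
      (hA (m + 1) h) z₁ z₂ hz₁ hz₂, ih (by omega), Finset.prod_range_succ _ (m + 1)]

/-- **Bridge B2, `l`-fold form** (`T6.IsConvProd`, the form of `T6.SplitMatchC`). -/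
theorem convProd_pair681 (l : ℕ) (hl : 0 < l)
    (φ : ℕ → GL (Fin 2) (v.adicCompletion K) → ℂ) (f : GL (Fin 2) (v.adicCompletion K) → ℂ)
    (A : ℕ → ℤ × ℤ → ℂ) (hA : ∀ j < l, (Function.support (A j)).Finite)
    (hp : ∀ j < l, IsSatakePair v (φ j) (A j)) (hc : IsConvProd (InU 0) l φ f) :
    IsSatakePair v f (convIter681 A (l - 1)) := by
  obtain ⟨χ, h0, hstep, hf⟩ := hc
  have key : ∀ m < l, IsSatakePair v (χ m) (convIter681 A m) := by
    intro m
    induction m with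
    | zero =>
      intro h
      rw [h0, convIter_zero681]
      exact hp 0 h
    | succ m ih =>
      intro h
      have h1 := ih (by omega)
      have h2 := hp (m + 1) h
      rw [convIter_succ681]
      exact conv_pair_coef681 v (χ m) (φ (m + 1)) (χ (m + 1)) _ _
        (convIter_fin681 A l hA m (by omega)) (hA (m + 1) h) h1.bi_inv h1.fin_supp h1.eigen
        h2.bi_inv h2.fin_supp h2.eigen (hstep m h)
  rw [hf]
  exact key (l - 1) (by omega)

end Pair

/-! ## Appendix: the equation lemmas of the recursive definition are realised HERE -/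

theorem eqns_realised_convIter681 : True := by
  have _h0 := @convIter681.eq_def
  have _h1 := @convIter681.eq_1
  have _h2 := @convIter681.eq_2
  have _h3 := @convIter681.eq_unfold
  trivial

end Fermat.Agent.LT.T3.H681

end
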