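import Fermat.Agent.LT.T3.H681.SatakeBC
import Fermat.Agent.LT.T3.H681.SatakeConvProd

/-!
# Row LT, tower T3, asset (helper681), OFF-MAIN -- part 9: the local factors downstairs

Existence forms of the bridges B1 / B2 in the shape which the construction nodes of tower T7 use
(`H893.SphOut893`, `H893.LocHyp893.split`, `T3.M.IsPurePairM`):

* `bcCoef_symFin681`, `convCoef_symFin681`, `convIter_symFin681` : the coefficients downstairs
  are again `IsSymFin`;
* `sph_pair681` : EVERY spherical function `fun g => A (cartan g)` (`A` dominant) has a T3 pair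
  `(f, B)` with `B` symmetric finite and `laurent B = ` the Satake transform of `A` (T6 form);
* `inert_pair681` (inert place, from `T6.BCExistsC`) : the base change exists and is a T3 pair;
* `exists_conv681`, `exists_convProd681` : the convolution (product) exists (`T6.IsConv`,
  `T6.IsConvProd` at level `0`);
* `split_sph681` (split place) : for spherical `A 0, …, A (l-1)` there is a dominant `Av` with
  `T6.IsConvProd (InU 0) l (A j ∘ cartan) (Av ∘ cartan)`, Satake transform = the product, and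
  the T3 pair `convIter681 B (l - 1)` for all T3 pairs `B j` of the factors.
-/

set_option autoImplicit false
set_option linter.unusedSectionVars false

open scoped Classical

open IsDedekindDomain NumberField MeasureTheory

noncomputable section

namespace Fermat.Agent.LT.T3.H681

open Fermat.Agent.LT.T6 Fermat.Agent.LT.T6.H305 Fermat.Agent.LT.T3.AS Fermat.Agent.LT.T3.H263

/-! ## Symmetry of the coefficients -/

theorem bcCoef_symFin681 (l : ℕ) (A : ℤ × ℤ → ℂ) (hA : IsSymFin A) :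
    IsSymFin (bcCoef681 l A) := by
  refine ⟨bcCoef_fin681 l A hA.1, fun m₁ m₂ => ?_⟩
  unfold bcCoef681
  by_cases h : (l : ℤ) ∣ m₁ ∧ (l : ℤ) ∣ m₂
  · rw [if_pos h, if_pos ⟨h.2, h.1⟩]
    exact hA.2 _ _
  · rw [if_neg h, if_neg (fun h' => h ⟨h'.2, h'.1⟩)]

theorem convCoef_symFin681 (A₁ A₂ : ℤ × ℤ → ℂ) (h₁ : IsSymFin A₁) (h₂ : IsSymFin A₂) :
    IsSymFin (convCoef681 A₁ A₂) := by
  refine ⟨convCoef_fin681 A₁ A₂ h₁.1 h₂.1, fun m₁ m₂ => ?_⟩
  unfold convCoef681
  rw [← finsum_comp_equiv (Equiv.prodComm ℤ ℤ)]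
  refine finsum_congr (fun m' => ?_)
  show A₁ (m'.2, m'.1) * A₂ ((m₁, m₂) - (m'.2, m'.1)) = A₁ m' * A₂ ((m₂, m₁) - m')
  rw [h₁.2 m'.2 m'.1]
  have e : ((m₁, m₂) - (m'.2, m'.1) : ℤ × ℤ) = (m₁ - m'.2, m₂ - m'.1) := rfl
  have e' : ((m₂, m₁) - m' : ℤ × ℤ) = (m₂ - m'.1, m₁ - m'.2) := rfl
  rw [e, e', h₂.2 (m₁ - m'.2) (m₂ - m'.1)]

theorem convIter_symFin681 (A : ℕ → ℤ × ℤ → ℂ) (l : ℕ) (hA : ∀ j < l, IsSymFin (A j)) :
    ∀ m < l, IsSymFin (convIter681 A m) := by
  intro m
  induction m with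
  | zero =>
    intro h
    rw [convIter_zero681]
    exact hA 0 h
  | succ m ih =>
    intro h
    rw [convIter_succ681]
    exact convCoef_symFin681 _ _ (ih (by omega)) (hA (m + 1) h)

/-! ## Symmetry of the Satake polynomials -/

theorem satPoly_symm681 (q : ℕ) (x y : ℂ) :
    ∀ n : ℕ, satPoly q x y n = satPoly q y x n := by
  have key : ∀ n : ℕ, satPoly q x y n = satPoly q y x n ∧
      satPoly q x y (n + 1) = satPoly q y x (n + 1) ∧
      satPoly q x y (n + 2) = satPoly q y x (n + 2) := by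
    intro n
    induction n with
    | zero =>
      refine ⟨?_, ?_, ?_⟩
      · rw [satPoly_zero, satPoly_zero]
      · rw [show (0 : ℕ) + 1 = 1 from rfl, satPoly_one, satPoly_one, add_comm]
      · rw [show (0 : ℕ) + 2 = 2 from rfl, satPoly_two, satPoly_two, add_comm x y, mul_comm x y]
    | succ n ih =>
      refine ⟨ih.2.1, ih.2.2, ?_⟩
      rw [show n + 1 + 2 = n + 3 from rfl, satPoly_add_three, satPoly_add_three, ih.2.1, ih.2.2,
        add_comm x y, mul_comm x y]
  exact fun n => (key n).1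

theorem satake_symm681 (q : ℕ) (lam : ℤ × ℤ) (x y : ℂ) :
    satake q lam x y = satake q lam y x := by
  unfold satake
  rw [satPoly_symm681 q x y, mul_comm x y]

/-! ## Existence of convolutions (any valued field) -/

section Abstract

variable {k : Type} [Field k] [Valued k Γ₀]

/-- The convolution exists. -/
theorem exists_conv681 (φ ψ : GL (Fin 2) k → ℂ) (R : Finset (GL (Fin 2) k))
    (hR : IsRep263 φ R) : ∃ χ : GL (Fin 2) k → ℂ, IsConv (InU 0) φ ψ χ := by
  refine ⟨fun g => ∑ h ∈ R, φ h * ψ (h⁻¹ * g), fun g => ⟨R, ?_, ?_, rfl⟩⟩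
  · rintro h hh h' hh' ⟨u, hu, rfl⟩
    refine hR.1 h hh _ hh' ?_
    rw [inv_mul_cancel_left]
    exact (inU_zero_iff _).1 hu
  · intro h hne
    obtain ⟨h', hh', hK⟩ := hR.2 h (left_ne_zero_of_mul hne)
    refine ⟨h', hh', h'⁻¹ * h, (inU_zero_iff _).2 hK, ?_⟩
    group

/-- The convolution product exists, and it is bi-invariant with a finite system of
representatives. -/
theorem exists_convProd681 (φ : ℕ → GL (Fin 2) k → ℂ) (l : ℕ)
    (hl : ∀ j < l, IsLInv263 (φ j)) (hr : ∀ j < l, IsRInv263 (φ j))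
    (hrep : ∀ j < l, ∃ R, IsRep263 (φ j) R) :
    ∀ m < l, ∃ χ : ℕ → GL (Fin 2) k → ℂ, χ 0 = φ 0 ∧
      (∀ i : ℕ, i + 1 ≤ m → IsConv (InU 0) (χ i) (φ (i + 1)) (χ (i + 1))) ∧
      IsLInv263 (χ m) ∧ IsRInv263 (χ m) ∧ ∃ R, IsRep263 (χ m) R := by
  intro m
  induction m with
  | zero =>
    intro h
    exact ⟨fun _ => φ 0, rfl, fun i hi => absurd hi (by omega), hl 0 h, hr 0 h, hrep 0 h⟩
  | succ m ih =>
    intro h
    obtain ⟨χ, h0, hstep, hχl, hχr, R₁, hR₁⟩ := ih (by omega)
    obtain ⟨R₂, hR₂⟩ := hrep (m + 1) h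
    obtain ⟨c, hc⟩ := exists_conv681 (χ m) (φ (m + 1)) R₁ hR₁
    obtain ⟨R, hR, hcov⟩ := exists_prod_sys681 R₁ R₂
    refine ⟨Function.update χ (m + 1) c, ?_, ?_, ?_, ?_, R, ?_⟩
    · rw [Function.update_of_ne (by omega)]
      exact h0
    · intro i hi
      by_cases him : i = m
      · subst him
        rw [Function.update_self, Function.update_of_ne (by omega)]
        exact hc
      · rw [Function.update_of_ne (by omega), Function.update_of_ne (by omega)]
        exact hstep i (by omega)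
    · rw [Function.update_self]
      exact conv_linv681 hχl hχr (hl (m + 1) h) hc R₁ hR₁
    · rw [Function.update_self]
      exact conv_rinv681 hχr (hl (m + 1) h) (hr (m + 1) h) hc R₁ hR₁
    · rw [Function.update_self]
      exact conv_rep_of_prod681 hχr (hl (m + 1) h) hc R₁ R₂ R hR₁ hR₂ hR hcov

end Abstract

section Pair

variable {K K' : Type} [Field K] [NumberField K] [Field K'] [NumberField K']

/-- Every spherical function has a T3 pair with symmetric finite coefficients; its Laurent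
polynomial is the Satake transform in the T6 form. -/
theorem sph_pair681 (v : HeightOneSpectrum (𝓞 K)) (A : (ℤ × ℤ) →₀ ℂ) (hA : IsDominant A) :
    ∃ B : ℤ × ℤ → ℂ, IsSymFin B ∧ IsSatakePair v (fun g => A (cartan g)) B ∧
      ∀ x y : ℂ, x ≠ 0 → y ≠ 0 →
        laurent B x y = A.sum fun lam c => c * satake (Ideal.absNorm v.asIdeal) lam x y := by
  obtain ⟨D, hD⟩ := exists_resData (Fermat.Agent.LT.T6.H176.instLocalC176 K v)
  obtain ⟨B, h1, h2⟩ := (mem_pairSub681 D _).1
    (mem_pairSub_of_biinv681 D (isCompact_int263 v) (sph_linv681 A) (sph_rinv681 A) _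
      (sph_rep681 D A hA))
  have hpair : IsSatakePair v (fun g => A (cartan g)) B := isSatakePair_of263 v D hD h1 h2
  have hL : ∀ x y : ℂ, x ≠ 0 → y ≠ 0 →
      laurent B x y = A.sum fun lam c => c * satake (Ideal.absNorm v.asIdeal) lam x y :=
    fun x y hx hy => (sph_sum_eq_laurent681 v A hA B hpair.eigen x y hx hy).symm
  refine ⟨B, ⟨h1.fin, fun m₁ m₂ => ?_⟩, hpair, hL⟩
  -- symmetry: the Satake transform is symmetric in `(x, y)`
  have hswap : (fun m : ℤ × ℤ => B (m.2, m.1)) = B := by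
    apply laurent2_inj681 _ B
      ((h1.fin.image (fun m : ℤ × ℤ => (m.2, m.1))).subset (by
        intro m hm
        rw [Function.mem_support] at hm
        exact ⟨(m.2, m.1), hm, rfl⟩)) h1.fin
    intro z₁ z₂ hz₁ hz₂
    have e1 : ∑ᶠ m : ℤ × ℤ, B (m.2, m.1) * z₁ ^ m.1 * z₂ ^ m.2 = laurent B z₂ z₁ := by
      unfold laurent
      rw [← finsum_comp_equiv (Equiv.prodComm ℤ ℤ)]
      refine finsum_congr (fun m => ?_)
      show B (m.1, m.2) * z₁ ^ m.2 * z₂ ^ m.1 = B m * z₂ ^ m.1 * z₁ ^ m.2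
      ring
    have e2 : laurent B z₂ z₁ = laurent B z₁ z₂ := by
      rw [hL z₂ z₁ hz₂ hz₁, hL z₁ z₂ hz₁ hz₂]
      refine Finset.sum_congr rfl (fun lam _ => ?_)
      show A lam * satake _ lam z₂ z₁ = A lam * satake _ lam z₁ z₂
      congr 1
      exact satake_symm681 _ lam z₂ z₁
    rw [e1, e2]
    rfl
  have := congrFun hswap (m₂, m₁)
  exact this

/-- **Inert place**: the T6 base change of a T3 pair upstairs exists and is a T3 pair. -/
theorem inert_pair681 (hBC : BCExistsC) (v : HeightOneSpectrum (𝓞 K))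
    (w : HeightOneSpectrum (𝓞 K')) (l : ℕ) (hl : 0 < l)
    (hq : Ideal.absNorm w.asIdeal = Ideal.absNorm v.asIdeal ^ l)
    (hq1 : 1 < Ideal.absNorm v.asIdeal)
    (f₀ : GL (Fin 2) (w.adicCompletion K') → ℂ) (A : ℤ × ℤ → ℂ) (hA : IsSymFin A)
    (hp : IsSatakePair w f₀ A) :
    ∃ φ f : (ℤ × ℤ) →₀ ℂ, IsDominant φ ∧ IsDominant f ∧ f₀ = (fun g => φ (cartan g)) ∧
      IsBC l (Ideal.absNorm v.asIdeal) φ f ∧
      IsSatakePair v (fun g => f (cartan g)) (bcCoef681 l A) ∧ IsSymFin (bcCoef681 l A) := by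
  obtain ⟨φ, hφ, e, hall⟩ := bc_pair_of_biinv681 v w l hl hq f₀ A hA.1 hp.bi_inv hp.fin_supp
    hp.eigen
  obtain ⟨f, hf, hbc, _⟩ := hBC l (Ideal.absNorm v.asIdeal) hl hq1 φ hφ
  exact ⟨φ, f, hφ, hf, e, hbc, hall f hf hbc, bcCoef_symFin681 l A hA⟩

/-- **Split place**: the convolution product of spherical functions is spherical, its Satake
transform is the product, and it is a T3 pair for the convolution of the coefficients. -/
theorem split_sph681 (v : HeightOneSpectrum (𝓞 K)) (l : ℕ) (hl : 0 < l)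
    (A : ℕ → (ℤ × ℤ) →₀ ℂ) (hA : ∀ j < l, IsDominant (A j)) :
    ∃ Av : (ℤ × ℤ) →₀ ℂ, IsDominant Av ∧
      IsConvProd (InU 0) l (fun j (g : GL (Fin 2) (v.adicCompletion K)) => A j (cartan g))
        (fun g => Av (cartan g)) ∧
      (∀ x y : ℂ, x ≠ 0 → y ≠ 0 →
        (Av.sum fun lam c => c * satake (Ideal.absNorm v.asIdeal) lam x y)
          = ∏ j ∈ Finset.range l,
              (A j).sum fun lam c => c * satake (Ideal.absNorm v.asIdeal) lam x y) ∧
      ∀ B : ℕ → ℤ × ℤ → ℂ, (∀ j < l, (Function.support (B j)).Finite) →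
        (∀ j < l, IsSatakePair v (fun g => A j (cartan g)) (B j)) →
        IsSatakePair v (fun g => Av (cartan g)) (convIter681 B (l - 1)) := by
  obtain ⟨D, hD⟩ := exists_resData (Fermat.Agent.LT.T6.H176.instLocalC176 K v)
  obtain ⟨χ, h0, hstep, hχl, hχr, R, hR⟩ := exists_convProd681
    (fun j (g : GL (Fin 2) (v.adicCompletion K)) => A j (cartan g)) l
    (fun j _ => sph_linv681 (A j)) (fun j _ => sph_rinv681 (A j))
    (fun j hj => ⟨_, sph_rep681 D (A j) (hA j hj)⟩) (l - 1) (by omega)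
  obtain ⟨Av, hAv, e⟩ := exists_sph_of_biinv681 D hχl hχr R hR
  have hprod : IsConvProd (InU 0) l
      (fun j (g : GL (Fin 2) (v.adicCompletion K)) => A j (cartan g))
      (fun g => Av (cartan g)) :=
    ⟨χ, h0, fun m hm => hstep m (by omega), e.symm⟩
  have hpairs : ∀ B : ℕ → ℤ × ℤ → ℂ, (∀ j < l, (Function.support (B j)).Finite) →
      (∀ j < l, IsSatakePair v (fun g => A j (cartan g)) (B j)) →
      IsSatakePair v (fun g => Av (cartan g)) (convIter681 B (l - 1)) :=
    fun B hB hp => convProd_pair681 v l hl _ _ B hB hp hprod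
  refine ⟨Av, hAv, hprod, ?_, hpairs⟩
  intro x y hx hy
  -- choose T3 pairs of the factors
  have hex : ∀ j : ℕ, ∃ B : ℤ × ℤ → ℂ, j < l → (IsSymFin B ∧
      IsSatakePair v (fun g => A j (cartan g)) B ∧
      ∀ x y : ℂ, x ≠ 0 → y ≠ 0 →
        laurent B x y
          = (A j).sum fun lam c => c * satake (Ideal.absNorm v.asIdeal) lam x y) := by
    intro j
    by_cases hj : j < l
    · obtain ⟨B, h1, h2, h3⟩ := sph_pair681 v (A j) (hA j hj)
      exact ⟨B, fun _ => ⟨h1, h2, h3⟩⟩
    · exact ⟨fun _ => 0, fun h => absurd h hj⟩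
  choose B hB using hex
  have hp := hpairs B (fun j hj => (hB j hj).1.1) (fun j hj => (hB j hj).2.1)
  rw [sph_sum_eq_laurent681 v Av hAv _ hp.eigen x y hx hy,
    laurent_convIter681 B l (fun j hj => (hB j hj).1.1) x y hx hy (l - 1) (by omega),
    show l - 1 + 1 = l by omega]
  refine Finset.prod_congr rfl (fun j hj => ?_)
  exact (hB j (Finset.mem_range.1 hj)).2.2 x y hx hy

end Pair

end Fermat.Agent.LT.T3.H681

end
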