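import Fermat.Agent.LT.T3.H263.SatDecomp

/-!
# Row LT, tower T3, asset `SatakeInjC` (helper681), OFF-MAIN -- part 2: Cartan decomposition

Abstract nonarchimedean local field `k` with residue data `D` and compact ring of integers.
Every function on `GL₂(k)` which is bi-invariant under `GL₂(𝒪)` and has a finite system of
representatives is a finite linear combination of the `T_{n,m}` of helper263, hence HAS a Satake
pair `(f, A')` (`IsSatAlg263` and `HasN263`):

* `ed681`                    : elementary divisors, `g = κ₁ diag(ϖ^n, 1) κ₂`;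
* `const_cartan681`          : a bi-invariant function is constant on the Cartan classes;
* `tind_eq681`               : `T_{n,b} = 1{cartan = (n+b, b)} + T_{n-2,b+1}`;
* `mem_pairSub_of_biinv681`  : the decomposition.

Imports: byte-identical copies of the closed `SatakeLocC` closure of helper263.
-/

set_option autoImplicit false
set_option linter.unusedSectionVars false

open scoped Classical

open MeasureTheory

noncomputable section

namespace Fermat.Agent.LT.T3.H681

open Fermat.Agent.LT.T6 Fermat.Agent.LT.T6.H305 Fermat.Agent.LT.T3.H263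

variable {k : Type} [Field k] [Valued k Γ₀]

/-- The permutation matrix `[[0, 1], [1, 0]]`. -/
def wperm681 : GL (Fin 2) k := mk2 0 1 1 0 (by simp)

theorem inK_wperm681 : InK (wperm681 : GL (Fin 2) k) := by
  rw [inK_iff]
  refine ⟨fun i j => ?_, ?_⟩
  · fin_cases i <;> fin_cases j <;> simp [wperm681]
  · simp [wperm681, Matrix.det_fin_two_of]

/-- Elementary divisors when the lower right entry is a unit. -/
theorem ed_unit681 (D : ResData k) {n : ℕ} (g : GL (Fin 2) k) (hS : InS263 n 0 g)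
    (hd : Valued.v ((g : Matrix (Fin 2) (Fin 2) k) 1 1) = 1) :
    ∃ κ₁ κ₂ : GL (Fin 2) k, InK κ₁ ∧ InK κ₂ ∧ g = κ₁ * D.um n 0 0 * κ₂ := by
  have hint : ∀ i j, Valued.v ((g : Matrix (Fin 2) (Fin 2) k) i j) ≤ 1 := by
    intro i j
    have := hS.1 i j
    simpa using this
  have hd0 : (g : Matrix (Fin 2) (Fin 2) k) 1 1 ≠ 0 := by
    intro h
    rw [h, map_zero] at hd
    exact zero_ne_one hd
  have hdet : (g : Matrix (Fin 2) (Fin 2) k).det
      = (g : Matrix (Fin 2) (Fin 2) k) 0 0 * (g : Matrix (Fin 2) (Fin 2) k) 1 1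
        - (g : Matrix (Fin 2) (Fin 2) k) 0 1 * (g : Matrix (Fin 2) (Fin 2) k) 1 0 :=
    Matrix.det_fin_two _
  have hdetv : Valued.v ((g : Matrix (Fin 2) (Fin 2) k) 0 0 * (g : Matrix (Fin 2) (Fin 2) k) 1 1
        - (g : Matrix (Fin 2) (Fin 2) k) 0 1 * (g : Matrix (Fin 2) (Fin 2) k) 1 0)
      = WithZero.exp (-(n : ℤ)) := by
    rw [← hdet, hS.2]
    simp
  have hπ : D.ϖ ^ n ≠ 0 := pow_ne_zero _ D.ϖ_ne_zero
  have hdet0 : (g : Matrix (Fin 2) (Fin 2) k) 0 0 * (g : Matrix (Fin 2) (Fin 2) k) 1 1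
        - (g : Matrix (Fin 2) (Fin 2) k) 0 1 * (g : Matrix (Fin 2) (Fin 2) k) 1 0 ≠ 0 := by
    rw [← hdet]
    exact det_ne_zero g
  generalize ha : (g : Matrix (Fin 2) (Fin 2) k) 0 0 = a at *
  generalize hb : (g : Matrix (Fin 2) (Fin 2) k) 0 1 = b at *
  generalize hc : (g : Matrix (Fin 2) (Fin 2) k) 1 0 = c at *
  generalize hd' : (g : Matrix (Fin 2) (Fin 2) k) 1 1 = d at *
  have hu1 : Valued.v ((a * d - b * c) / (d * D.ϖ ^ n)) = 1 := by
    rw [map_div₀, map_mul, hd, one_mul, D.val_pow, hdetv]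
    exact div_self WithZero.exp_ne_zero
  have hu0 : (a * d - b * c) / (d * D.ϖ ^ n) ≠ 0 := div_ne_zero hdet0 (mul_ne_zero hd0 hπ)
  have hbv : Valued.v b ≤ 1 := by
    have := hint 0 1
    rwa [hb] at this
  have hcv : Valued.v c ≤ 1 := by
    have := hint 1 0
    rwa [hc] at this
  refine ⟨nm (b / d), mk2 ((a * d - b * c) / (d * D.ϖ ^ n)) 0 c d (by simp [hu0, hd0]),
    inK_nm ?_, ?_, ?_⟩
  · rw [map_div₀, hd, div_one]
    exact hbv
  · rw [inK_iff]
    refine ⟨fun i j => ?_, ?_⟩
    · fin_cases i <;> fin_cases j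
      · exact hu1.le
      · show Valued.v (0 : k) ≤ 1
        simp
      · exact hcv
      · exact hd.le
    · rw [mk2_val, Matrix.det_fin_two_of, zero_mul, sub_zero, map_mul, hu1, hd, mul_one]
  · apply Units.ext
    rw [Units.val_mul, Units.val_mul, nm, mk2_val, mk2_val, ResData.um_val,
      Matrix.eta_fin_two (g : Matrix (Fin 2) (Fin 2) k), ha, hb, hc, hd']
    ext i j
    fin_cases i <;> fin_cases j
    all_goals
      simp only [Matrix.mul_apply, Fin.sum_univ_two, Matrix.of_apply, Matrix.cons_val',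
        Matrix.cons_val_zero, Matrix.cons_val_one, Matrix.cons_val_fin_one, Fin.zero_eta,
        Fin.mk_one, mul_zero, add_zero, zero_mul, zero_add, one_mul, mul_one, pow_zero]
      try field_simp
      try ring

theorem wperm_right681 (h : GL (Fin 2) k) (i : Fin 2) :
    ((h * wperm681 : GL (Fin 2) k) : Matrix (Fin 2) (Fin 2) k) i 1
      = (h : Matrix (Fin 2) (Fin 2) k) i 0 := by
  rw [Units.val_mul, Matrix.mul_apply, Fin.sum_univ_two]
  simp [wperm681]

theorem wperm_left681 (h : GL (Fin 2) k) (j : Fin 2) :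
    ((wperm681 * h : GL (Fin 2) k) : Matrix (Fin 2) (Fin 2) k) 1 j
      = (h : Matrix (Fin 2) (Fin 2) k) 0 j := by
  rw [Units.val_mul, Matrix.mul_apply, Fin.sum_univ_two]
  simp [wperm681]

/-- Elementary divisors: a primitive integral matrix of determinant `ϖ^n` (up to a unit) lies in
`GL₂(𝒪) diag(ϖ^n, 1) GL₂(𝒪)`. -/
theorem ed681 (D : ResData k) {n : ℕ} (g : GL (Fin 2) k) (hS : InS263 n 0 g)
    (hmax : entryMax g = 1) :
    ∃ κ₁ κ₂ : GL (Fin 2) k, InK κ₁ ∧ InK κ₂ ∧ g = κ₁ * D.um n 0 0 * κ₂ := by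
  obtain ⟨i, j, hij⟩ := exists_entryMax g
  rw [hmax] at hij
  have hw := inK_wperm681 (k := k)
  have hwinv : InK (wperm681⁻¹ : GL (Fin 2) k) := inK_inv hw
  have h2 : ∀ i : Fin 2, i = 0 ∨ i = 1 := by decide
  rcases h2 i with rfl | rfl <;> rcases h2 j with rfl | rfl
  · have h1 : InS263 n 0 (wperm681 * g * wperm681) :=
      inS_mul_right263 (inS_mul_left263 hS hw) hw
    obtain ⟨κ₁, κ₂, h₁, h₂, e⟩ := ed_unit681 D _ h1
      (by rw [wperm_right681, wperm_left681]; exact hij.symm)
    refine ⟨wperm681⁻¹ * κ₁, κ₂ * wperm681⁻¹, inK_mul hwinv h₁, inK_mul h₂ hwinv, ?_⟩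
    have e' : g = wperm681⁻¹ * (wperm681 * g * wperm681) * wperm681⁻¹ := by group
    rw [e', e]
    group
  · have h1 : InS263 n 0 (wperm681 * g) := inS_mul_left263 hS hw
    obtain ⟨κ₁, κ₂, h₁, h₂, e⟩ := ed_unit681 D _ h1
      (by rw [wperm_left681]; exact hij.symm)
    refine ⟨wperm681⁻¹ * κ₁, κ₂, inK_mul hwinv h₁, h₂, ?_⟩
    have e' : g = wperm681⁻¹ * (wperm681 * g) := by group
    rw [e', e]
    group
  · have h1 : InS263 n 0 (g * wperm681) := inS_mul_right263 hS hw
    obtain ⟨κ₁, κ₂, h₁, h₂, e⟩ := ed_unit681 D _ h1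
      (by rw [wperm_right681]; exact hij.symm)
    refine ⟨κ₁, κ₂ * wperm681⁻¹, h₁, inK_mul h₂ hwinv, ?_⟩
    have e' : g = (g * wperm681) * wperm681⁻¹ := by group
    rw [e', e]
    group
  · exact ed_unit681 D g hS hij.symm

/-! ## Cartan invariant in terms of logarithms -/

theorem log_det_le681 (g : GL (Fin 2) k) :
    WithZero.log (Valued.v (g : Matrix (Fin 2) (Fin 2) k).det)
      ≤ 2 * WithZero.log (entryMax g) := by
  have h : Valued.v (g : Matrix (Fin 2) (Fin 2) k).det ≤ entryMax g * entryMax g := by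
    rw [Matrix.det_fin_two]
    refine Valuation.map_sub_le _ ?_ ?_
    · rw [map_mul]
      exact mul_le_mul' (le_entryMax g 0 0) (le_entryMax g 1 1)
    · rw [map_mul]
      exact mul_le_mul' (le_entryMax g 0 1) (le_entryMax g 1 0)
  have h2 := (WithZero.log_le_log (val_det_ne_zero g)
    (mul_ne_zero (entryMax_ne_zero g) (entryMax_ne_zero g))).2 h
  rw [WithZero.log_mul (entryMax_ne_zero g) (entryMax_ne_zero g)] at h2
  omega

theorem inS_iff_log681 (n : ℕ) (b : ℤ) (g : GL (Fin 2) k) :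
    InS263 n b g ↔ WithZero.log (entryMax g) ≤ -b ∧
      WithZero.log (Valued.v (g : Matrix (Fin 2) (Fin 2) k).det) = -((n : ℤ) + 2 * b) := by
  unfold InS263
  rw [← entryMax_le_iff, ← WithZero.log_le_iff_le_exp (entryMax_ne_zero g)]
  constructor
  · rintro ⟨h1, h2⟩
    exact ⟨h1, by rw [h2, WithZero.log_exp]⟩
  · rintro ⟨h1, h2⟩
    exact ⟨h1, by rw [← WithZero.exp_log (val_det_ne_zero g), h2]⟩

theorem cartan_iff_log681 (a b : ℤ) (g : GL (Fin 2) k) :
    cartan g = (a, b) ↔ WithZero.log (entryMax g) = -b ∧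
      WithZero.log (Valued.v (g : Matrix (Fin 2) (Fin 2) k).det) = -(a + b) := by
  unfold cartan
  rw [Prod.mk.injEq]
  constructor <;> rintro ⟨h1, h2⟩ <;> constructor <;> omega

theorem cartan_le681 (g : GL (Fin 2) k) : (cartan g).2 ≤ (cartan g).1 := by
  have := log_det_le681 g
  unfold cartan
  simp only
  omega

theorem cartan_mul_right681 (g κ : GL (Fin 2) k) (hκ : InK κ) : cartan (g * κ) = cartan g := by
  unfold cartan
  rw [entryMax_mul g κ hκ, val_det_mul g κ hκ]

theorem cartan_congr681 {h g : GL (Fin 2) k} (hK : InK (h⁻¹ * g)) : cartan g = cartan h := by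
  have e : g = h * (h⁻¹ * g) := by group
  rw [e]
  exact cartan_mul_right681 h _ hK

/-- The indicator function of a Cartan class. -/
def Eind681 (lam : ℤ × ℤ) (g : GL (Fin 2) k) : ℂ := if cartan g = lam then 1 else 0

theorem tind_eq681 (n : ℕ) (b : ℤ) (g : GL (Fin 2) k) :
    Tind263 n b g = Eind681 ((n : ℤ) + b, b) g
      + (if 2 ≤ n then Tind263 (n - 2) (b + 1) g else 0) := by
  unfold Tind263 Eind681
  have hL := log_det_le681 g
  have i1 := inS_iff_log681 n b g
  have i2 := inS_iff_log681 (n - 2) (b + 1) g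
  have i3 := cartan_iff_log681 ((n : ℤ) + b) b g
  by_cases h2 : 2 ≤ n
  · rw [if_pos h2]
    by_cases hc : cartan g = ((n : ℤ) + b, b)
    · have hc' := i3.1 hc
      rw [if_pos hc, if_pos (i1.2 ⟨by omega, by omega⟩), if_neg, add_zero]
      intro hS
      have := i2.1 hS
      omega
    · by_cases hS : InS263 n b g
      · have hS' := i1.1 hS
        have hc' : ¬ (WithZero.log (entryMax g) = -b ∧
            WithZero.log (Valued.v (g : Matrix (Fin 2) (Fin 2) k).det) = -((n : ℤ) + b + b)) :=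
          fun h => hc (i3.2 h)
        rw [if_pos hS, if_neg hc, if_pos, zero_add]
        rw [i2]
        constructor
        · by_contra hcon
          apply hc'
          constructor <;> omega
        · omega
      · rw [if_neg hS, if_neg hc, if_neg, zero_add]
        intro hS2
        apply hS
        have := i2.1 hS2
        rw [i1]
        constructor <;> omega
  · rw [if_neg h2, add_zero]
    by_cases hc : cartan g = ((n : ℤ) + b, b)
    · have hc' := i3.1 hc
      rw [if_pos hc, if_pos (i1.2 ⟨by omega, by omega⟩)]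
    · rw [if_neg hc, if_neg]
      intro hS
      apply hc
      have := i1.1 hS
      rw [i3]
      constructor <;> omega

/-! ## Constancy on the Cartan classes -/

theorem const_cartan681 (D : ResData k) {f : GL (Fin 2) k → ℂ} (hl : IsLInv263 f)
    (hr : IsRInv263 f) (n : ℕ) (b : ℤ) (g : GL (Fin 2) k) (hg : cartan g = ((n : ℤ) + b, b)) :
    f g = f (D.sc b * D.um n 0 0) := by
  have h1 : cartan (D.sc (-b) * g) = ((n : ℤ), 0) := by
    rw [D.cartan_sc_mul, hg]
    simp
  obtain ⟨hmax, hdet⟩ := (cartan_eq_nat_iff _ n).1 h1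
  have hS : InS263 n 0 (D.sc (-b) * g) := by
    refine ⟨fun i j => ?_, ?_⟩
    · rw [neg_zero, WithZero.exp_zero, ← hmax]
      exact le_entryMax _ i j
    · rw [hdet]
      simp
  obtain ⟨κ₁, κ₂, h₁, h₂, e⟩ := ed681 D _ hS hmax
  have eg : g = κ₁ * (D.sc b * D.um n 0 0) * κ₂ := by
    have e0 : g = D.sc b * (D.sc (-b) * g) := by
      rw [← mul_assoc, ← D.sc_add]
      simp [D.sc_zero]
    rw [e0, e, ← mul_assoc, ← mul_assoc, D.sc_comm b κ₁]
    group
  rw [eg, hr κ₂ _ h₂, hl κ₁ _ h₁]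

/-! ## The decomposition -/

/-- The functions having a Satake pair. -/
def pairSub681 (D : ResData k) : Submodule ℂ (GL (Fin 2) k → ℂ) where
  carrier := {f | ∃ A : ℤ × ℤ → ℂ, IsSatAlg263 D f A ∧ HasN263 D f A}
  zero_mem' := ⟨fun _ => 0, isSatAlg_zero263 D, hasN_zero263 D⟩
  add_mem' := by
    rintro f g ⟨A, hA, hA'⟩ ⟨B, hB, hB'⟩
    exact ⟨_, isSatAlg_add263 D hA hB, hasN_add263 D hA' hB'⟩
  smul_mem' := by
    rintro c f ⟨A, hA, hA'⟩
    exact ⟨_, isSatAlg_smul263 D hA c, hasN_smul263 D hA' c⟩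

theorem mem_pairSub681 (D : ResData k) (f : GL (Fin 2) k → ℂ) :
    f ∈ pairSub681 D ↔ ∃ A : ℤ × ℤ → ℂ, IsSatAlg263 D f A ∧ HasN263 D f A :=
  Iff.rfl

theorem tind_mem681 (D : ResData k) (hcpt : IsCompact {x : k | Valued.v x ≤ 1})
    (n : ℕ) (m : ℤ) : Tind263 n m ∈ pairSub681 D :=
  ⟨Acoef263 D n m, isSatAlg_tind263 D n m, hasN_tind263 D hcpt n m⟩

theorem eind_mem681 (D : ResData k) (hcpt : IsCompact {x : k | Valued.v x ≤ 1})
    (n : ℕ) (b : ℤ) : Eind681 ((n : ℤ) + b, b) ∈ pairSub681 D := by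
  have e : (Eind681 ((n : ℤ) + b, b) : GL (Fin 2) k → ℂ)
      = Tind263 n b - (if 2 ≤ n then Tind263 (n - 2) (b + 1) else 0) := by
    funext g
    rw [Pi.sub_apply, tind_eq681 n b g]
    split_ifs <;> simp
  rw [e]
  refine Submodule.sub_mem _ (tind_mem681 D hcpt n b) ?_
  split_ifs
  · exact tind_mem681 D hcpt _ _
  · exact Submodule.zero_mem _

/-- **Cartan decomposition.**  A bi-invariant function with a finite system of representatives
has a Satake pair. -/
theorem mem_pairSub_of_biinv681 (D : ResData k) (hcpt : IsCompact {x : k | Valued.v x ≤ 1})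
    {f : GL (Fin 2) k → ℂ} (hl : IsLInv263 f) (hr : IsRInv263 f)
    (R : Finset (GL (Fin 2) k)) (hR : IsRep263 f R) : f ∈ pairSub681 D := by
  have hform : ∀ g : GL (Fin 2) k,
      cartan g = ((((cartan g).1 - (cartan g).2).toNat : ℤ) + (cartan g).2, (cartan g).2) := by
    intro g
    have := cartan_le681 g
    ext
    · simp only
      omega
    · rfl
  have e : f = ∑ lam ∈ R.image cartan,
      f (D.sc lam.2 * D.um (lam.1 - lam.2).toNat 0 0) • Eind681 lam := by
    funext g
    rw [Finset.sum_apply]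
    simp only [Pi.smul_apply, smul_eq_mul, Eind681, mul_ite, mul_one, mul_zero]
    rw [Finset.sum_ite_eq]
    split_ifs with hmem
    · exact const_cartan681 D hl hr _ _ g (hform g)
    · by_contra h0
      apply hmem
      obtain ⟨h, hh, hK⟩ := hR.2 g h0
      rw [Finset.mem_image]
      exact ⟨h, hh, (cartan_congr681 hK).symm⟩
  rw [e]
  refine Submodule.sum_mem _ (fun lam hlam => Submodule.smul_mem _ _ ?_)
  obtain ⟨h, _, rfl⟩ := Finset.mem_image.1 hlam
  rw [hform h]
  exact eind_mem681 D hcpt _ _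

end Fermat.Agent.LT.T3.H681

end
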