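import Mathlib

/-!
# Row LT, tower T3, asset `SatakeInjC` (helper681), OFF-MAIN -- part 1: Laurent uniqueness

A finitely supported `B : ℤ × ℤ → ℂ` whose Laurent polynomial `∑ B(m) z₁^{m₁} z₂^{m₂}` vanishes
on `(ℂˣ)²` is zero.  Mathlib only.
-/

set_option autoImplicit false

noncomputable section

namespace Fermat.Agent.LT.T3.H681

/-- One variable: a Laurent polynomial vanishing on `ℂˣ` has zero coefficients. -/
theorem laurent1_inj681 (S : Finset ℤ) (c : ℤ → ℂ)
    (h : ∀ z : ℂ, z ≠ 0 → ∑ a ∈ S, c a * z ^ a = 0) : ∀ a ∈ S, c a = 0 := by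
  classical
  obtain ⟨N, hN⟩ : ∃ N : ℤ, ∀ a ∈ S, 0 ≤ a + N := by
    refine ⟨∑ a ∈ S, |a|, fun a ha => ?_⟩
    have h1 : |a| ≤ ∑ b ∈ S, |b| := Finset.single_le_sum (fun b _ => abs_nonneg b) ha
    have h2 := neg_abs_le a
    linarith
  have hp : (∑ a ∈ S, Polynomial.C (c a) * Polynomial.X ^ (a + N).toNat : Polynomial ℂ) = 0 := by
    apply Polynomial.eq_zero_of_infinite_isRoot
    refine Set.Infinite.mono ?_ (Set.finite_singleton (0 : ℂ)).infinite_compl
    intro z hz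
    have hz0 : z ≠ 0 := hz
    show Polynomial.IsRoot _ z
    rw [Polynomial.IsRoot.def, Polynomial.eval_finset_sum]
    have e : ∀ a ∈ S, Polynomial.eval z (Polynomial.C (c a) * Polynomial.X ^ (a + N).toNat)
        = z ^ N * (c a * z ^ a) := by
      intro a ha
      rw [Polynomial.eval_mul, Polynomial.eval_C, Polynomial.eval_pow, Polynomial.eval_X,
        ← zpow_natCast, Int.toNat_of_nonneg (hN a ha), zpow_add₀ hz0]
      ring
    rw [Finset.sum_congr rfl e, ← Finset.mul_sum, h z hz0, mul_zero]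
  intro a ha
  have hc := congrArg (fun q : Polynomial ℂ => q.coeff (a + N).toNat) hp
  simp only [Polynomial.coeff_zero, Polynomial.finset_sum_coeff,
    Polynomial.coeff_C_mul_X_pow] at hc
  rw [Finset.sum_eq_single a] at hc
  · simpa using hc
  · intro b hb hba
    rw [if_neg]
    intro heq
    apply hba
    have h1 := hN a ha
    have h2 := hN b hb
    have : ((a + N).toNat : ℤ) = ((b + N).toNat : ℤ) := by rw [heq]
    rw [Int.toNat_of_nonneg h1, Int.toNat_of_nonneg h2] at this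
    omega
  · intro hna
    exact absurd ha hna

/-- Two variables. -/
theorem laurent2_zero681 (B : ℤ × ℤ → ℂ) (hB : (Function.support B).Finite)
    (h : ∀ z₁ z₂ : ℂ, z₁ ≠ 0 → z₂ ≠ 0 → ∑ᶠ m : ℤ × ℤ, B m * z₁ ^ m.1 * z₂ ^ m.2 = 0) :
    ∀ m, B m = 0 := by
  classical
  set S₁ : Finset ℤ := hB.toFinset.image Prod.fst with hS₁
  set S₂ : Finset ℤ := hB.toFinset.image Prod.snd with hS₂
  have hsupp : ∀ m : ℤ × ℤ, B m ≠ 0 → m ∈ S₁ ×ˢ S₂ := by
    intro m hm
    have : m ∈ hB.toFinset := by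
      rw [Set.Finite.mem_toFinset, Function.mem_support]
      exact hm
    rw [Finset.mem_product]
    exact ⟨Finset.mem_image_of_mem _ this, Finset.mem_image_of_mem _ this⟩
  have hsum : ∀ z₁ z₂ : ℂ, ∑ᶠ m : ℤ × ℤ, B m * z₁ ^ m.1 * z₂ ^ m.2
      = ∑ a ∈ S₁, (∑ b ∈ S₂, B (a, b) * z₂ ^ b) * z₁ ^ a := by
    intro z₁ z₂
    rw [finsum_eq_sum_of_support_subset (s := S₁ ×ˢ S₂), Finset.sum_product]
    · refine Finset.sum_congr rfl (fun a _ => ?_)
      rw [Finset.sum_mul]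
      refine Finset.sum_congr rfl (fun b _ => ?_)
      ring
    · intro m hm
      rw [Function.mem_support] at hm
      apply hsupp
      intro h0
      apply hm
      rw [h0, zero_mul, zero_mul]
  have key : ∀ z₂ : ℂ, z₂ ≠ 0 → ∀ a ∈ S₁, ∑ b ∈ S₂, B (a, b) * z₂ ^ b = 0 := by
    intro z₂ hz₂
    apply laurent1_inj681 S₁ (fun a => ∑ b ∈ S₂, B (a, b) * z₂ ^ b)
    intro z₁ hz₁
    rw [← hsum z₁ z₂]
    exact h z₁ z₂ hz₁ hz₂
  intro m
  by_contra hm
  have hmem := hsupp m hm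
  rw [Finset.mem_product] at hmem
  have := laurent1_inj681 S₂ (fun b => B (m.1, b)) (fun z hz => key z hz m.1 hmem.1) m.2 hmem.2
  exact hm this

/-- Two finitely supported functions with the same Laurent polynomial on `(ℂˣ)²` agree. -/
theorem laurent2_inj681 (A A' : ℤ × ℤ → ℂ) (hA : (Function.support A).Finite)
    (hA' : (Function.support A').Finite)
    (h : ∀ z₁ z₂ : ℂ, z₁ ≠ 0 → z₂ ≠ 0 →
      ∑ᶠ m : ℤ × ℤ, A m * z₁ ^ m.1 * z₂ ^ m.2 = ∑ᶠ m : ℤ × ℤ, A' m * z₁ ^ m.1 * z₂ ^ m.2) :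
    A = A' := by
  have hsub : ∀ (C : ℤ × ℤ → ℂ) (z₁ z₂ : ℂ),
      Function.support (fun m : ℤ × ℤ => C m * z₁ ^ m.1 * z₂ ^ m.2) ⊆ Function.support C := by
    intro C z₁ z₂ m hm
    rw [Function.mem_support] at hm ⊢
    intro h0
    apply hm
    rw [h0, zero_mul, zero_mul]
  have hfin : (Function.support (fun m => A m - A' m)).Finite := by
    refine (hA.union hA').subset ?_
    intro m hm
    rw [Function.mem_support] at hm
    by_contra hcon
    rw [Set.mem_union, Function.mem_support, Function.mem_support] at hcon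
    push Not at hcon
    apply hm
    rw [hcon.1, hcon.2, sub_zero]
  have h0 := laurent2_zero681 (fun m => A m - A' m) hfin (by
    intro z₁ z₂ hz₁ hz₂
    have e : (fun m : ℤ × ℤ => (A m - A' m) * z₁ ^ m.1 * z₂ ^ m.2)
        = fun m => A m * z₁ ^ m.1 * z₂ ^ m.2 - A' m * z₁ ^ m.1 * z₂ ^ m.2 := by
      funext m
      ring
    rw [e, finsum_sub_distrib (hA.subset (hsub A z₁ z₂)) (hA'.subset (hsub A' z₁ z₂)),
      h z₁ z₂ hz₁ hz₂, sub_self])
  funext m
  have := h0 m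
  exact sub_eq_zero.1 this

end Fermat.Agent.LT.T3.H681

end
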