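import Fermat.Agent.LT.T3.H263.SatSys

/-!
# Row LT, tower T3, asset `SatakeInjC` (helper681), OFF-MAIN -- part 3: principal series

Abstract nonarchimedean local field `k` with residue data `D`.  For `z₁, z₂ ≠ 0` the function

    Φ_z(g) = w^{m₂ - m₁} z₁^{m₁} z₂^{m₂},   m₂ = min ord of the lower row of g,
                                            m₁ = ord (det g) - m₂          (w² = q)

is right invariant under `GL₂(𝒪)`, `Φ_z(1) = 1`, and it is an eigenfunction of `T` and `S` with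
eigenvalues `w (z₁ + z₂)` and `z₁ z₂` (`IsEig263`); scalar matrices of valuation `-1` act by
`z₁ z₂`.
-/

set_option autoImplicit false
set_option linter.unusedSectionVars false

open scoped Classical

noncomputable section

namespace Fermat.Agent.LT.T3.H681

open Fermat.Agent.LT.T6 Fermat.Agent.LT.T6.H305 Fermat.Agent.LT.T3.H263

variable {k : Type} [Field k] [Valued k Γ₀]

/-- The largest valuation of an entry of the lower row. -/
def bot681 (g : GL (Fin 2) k) : Γ₀ :=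
  max (Valued.v ((g : Matrix (Fin 2) (Fin 2) k) 1 0))
    (Valued.v ((g : Matrix (Fin 2) (Fin 2) k) 1 1))

theorem bot_ne_zero681 (g : GL (Fin 2) k) : bot681 g ≠ 0 := by
  intro h
  have h1 : Valued.v ((g : Matrix (Fin 2) (Fin 2) k) 1 0) ≤ 0 := by
    rw [← h]
    exact le_max_left _ _
  have h2 : Valued.v ((g : Matrix (Fin 2) (Fin 2) k) 1 1) ≤ 0 := by
    rw [← h]
    exact le_max_right _ _
  have e1 : (g : Matrix (Fin 2) (Fin 2) k) 1 0 = 0 := by simpa using h1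
  have e2 : (g : Matrix (Fin 2) (Fin 2) k) 1 1 = 0 := by simpa using h2
  apply det_ne_zero g
  rw [Matrix.det_fin_two, e1, e2]
  ring

theorem bot_mul_le681 (g κ : GL (Fin 2) k) (hκ : InK κ) : bot681 (g * κ) ≤ bot681 g := by
  unfold bot681
  have key : ∀ j, Valued.v (((g * κ : GL (Fin 2) k) : Matrix (Fin 2) (Fin 2) k) 1 j)
      ≤ max (Valued.v ((g : Matrix (Fin 2) (Fin 2) k) 1 0))
        (Valued.v ((g : Matrix (Fin 2) (Fin 2) k) 1 1)) := by
    intro j
    rw [Units.val_mul, Matrix.mul_apply, Fin.sum_univ_two]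
    refine Valuation.map_add_le _ ?_ ?_
    · rw [map_mul]
      calc Valued.v ((g : Matrix (Fin 2) (Fin 2) k) 1 0)
            * Valued.v ((κ : Matrix (Fin 2) (Fin 2) k) 0 j)
          ≤ Valued.v ((g : Matrix (Fin 2) (Fin 2) k) 1 0) * 1 := mul_le_mul' le_rfl (hκ.1 0 j)
        _ = Valued.v ((g : Matrix (Fin 2) (Fin 2) k) 1 0) := mul_one _
        _ ≤ _ := le_max_left _ _
    · rw [map_mul]
      calc Valued.v ((g : Matrix (Fin 2) (Fin 2) k) 1 1)
            * Valued.v ((κ : Matrix (Fin 2) (Fin 2) k) 1 j)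
          ≤ Valued.v ((g : Matrix (Fin 2) (Fin 2) k) 1 1) * 1 := mul_le_mul' le_rfl (hκ.1 1 j)
        _ = Valued.v ((g : Matrix (Fin 2) (Fin 2) k) 1 1) := mul_one _
        _ ≤ _ := le_max_right _ _
  exact max_le (key 0) (key 1)

theorem bot_mul681 (g κ : GL (Fin 2) k) (hκ : InK κ) : bot681 (g * κ) = bot681 g := by
  refine le_antisymm (bot_mul_le681 g κ hκ) ?_
  have := bot_mul_le681 (g * κ) κ⁻¹ (inK_inv hκ)
  simpa using this

/-- `m₂`. -/
def ordBot681 (g : GL (Fin 2) k) : ℤ := - WithZero.log (bot681 g)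

/-- `m₁`. -/
def ordTop681 (g : GL (Fin 2) k) : ℤ :=
  - WithZero.log (Valued.v (g : Matrix (Fin 2) (Fin 2) k).det) - ordBot681 g

/-- The spherical vector of the unramified principal series with Satake parameters `z₁, z₂`. -/
def princ681 (w z₁ z₂ : ℂ) (g : GL (Fin 2) k) : ℂ :=
  w ^ (ordBot681 g - ordTop681 g) * z₁ ^ ordTop681 g * z₂ ^ ordBot681 g

theorem princ_one681 (w z₁ z₂ : ℂ) : princ681 w z₁ z₂ (1 : GL (Fin 2) k) = 1 := by
  have hb : bot681 (1 : GL (Fin 2) k) = 1 := by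
    unfold bot681
    simp
  have h1 : ordBot681 (1 : GL (Fin 2) k) = 0 := by
    unfold ordBot681
    rw [hb]
    simp
  have h2 : ordTop681 (1 : GL (Fin 2) k) = 0 := by
    unfold ordTop681
    rw [h1]
    simp
  unfold princ681
  rw [h1, h2]
  simp

theorem princ_rinv681 (w z₁ z₂ : ℂ) : IsRInv263 (princ681 (k := k) w z₁ z₂) := by
  intro κ g hκ
  have h1 : ordBot681 (g * κ) = ordBot681 g := by
    unfold ordBot681
    rw [bot_mul681 g κ hκ]
  have h2 : ordTop681 (g * κ) = ordTop681 g := by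
    unfold ordTop681
    rw [h1, val_det_mul g κ hκ]
  unfold princ681
  rw [h1, h2]

/-- The total order is additive. -/
theorem ord_sum681 (g h : GL (Fin 2) k) (m : ℤ)
    (hh : Valued.v (h : Matrix (Fin 2) (Fin 2) k).det = WithZero.exp (-m)) :
    ordTop681 (g * h) + ordBot681 (g * h) = ordTop681 g + ordBot681 g + m := by
  unfold ordTop681
  rw [Units.val_mul, Matrix.det_mul, map_mul, hh,
    WithZero.log_mul (val_det_ne_zero g) WithZero.exp_ne_zero, WithZero.log_exp]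
  ring

theorem princ_same681 (w z₁ z₂ : ℂ) (hw : w ≠ 0) (hz₁ : z₁ ≠ 0) (g h : GL (Fin 2) k)
    (hh : Valued.v (h : Matrix (Fin 2) (Fin 2) k).det = WithZero.exp (-(1 : ℤ)))
    (hb : bot681 (g * h) = bot681 g) :
    princ681 w z₁ z₂ (g * h) = w⁻¹ * z₁ * princ681 w z₁ z₂ g := by
  have hs := ord_sum681 g h 1 hh
  have h1 : ordBot681 (g * h) = ordBot681 g := by
    unfold ordBot681
    rw [hb]
  have h2 : ordTop681 (g * h) = ordTop681 g + 1 := by omega
  unfold princ681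
  rw [h1, h2, zpow_add_one₀ hz₁,
    show ordBot681 g - (ordTop681 g + 1) = (ordBot681 g - ordTop681 g) - 1 by ring,
    zpow_sub_one₀ hw]
  ring

theorem princ_down681 (w z₁ z₂ : ℂ) (hw : w ≠ 0) (hz₂ : z₂ ≠ 0) (g h : GL (Fin 2) k)
    (hh : Valued.v (h : Matrix (Fin 2) (Fin 2) k).det = WithZero.exp (-(1 : ℤ)))
    (hb : bot681 (g * h) = bot681 g * WithZero.exp (-(1 : ℤ))) :
    princ681 w z₁ z₂ (g * h) = w * z₂ * princ681 w z₁ z₂ g := by
  have hs := ord_sum681 g h 1 hh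
  have h1 : ordBot681 (g * h) = ordBot681 g + 1 := by
    unfold ordBot681
    rw [hb, WithZero.log_mul (bot_ne_zero681 g) WithZero.exp_ne_zero, WithZero.log_exp]
    ring
  have h2 : ordTop681 (g * h) = ordTop681 g := by omega
  unfold princ681
  rw [h1, h2, zpow_add_one₀ hz₂,
    show ordBot681 g + 1 - ordTop681 g = (ordBot681 g - ordTop681 g) + 1 by ring,
    zpow_add_one₀ hw]
  ring

/-- Scalar matrices of valuation `-1` act by `z₁ z₂`. -/
theorem princ_scalar681 (w z₁ z₂ : ℂ) (hz₁ : z₁ ≠ 0) (hz₂ : z₂ ≠ 0) (z : GL (Fin 2) k) (c : k)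
    (hc : Valued.v c = WithZero.exp (-1 : ℤ))
    (hz : (z : Matrix (Fin 2) (Fin 2) k) = Matrix.diagonal (fun _ => c)) (g : GL (Fin 2) k) :
    princ681 w z₁ z₂ (g * z) = z₁ * z₂ * princ681 w z₁ z₂ g := by
  have hent : ∀ i j, ((g * z : GL (Fin 2) k) : Matrix (Fin 2) (Fin 2) k) i j
      = (g : Matrix (Fin 2) (Fin 2) k) i j * c := by
    intro i j
    rw [Units.val_mul, hz, Matrix.mul_diagonal]
  have hdz : Valued.v (z : Matrix (Fin 2) (Fin 2) k).det = WithZero.exp (-(2 : ℤ)) := by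
    rw [hz, Matrix.det_diagonal, Fin.prod_univ_two, map_mul, hc, ← WithZero.exp_add]
    norm_num
  have hs := ord_sum681 g z 2 hdz
  have hb : bot681 (g * z) = bot681 g * WithZero.exp (-(1 : ℤ)) := by
    unfold bot681
    rw [hent, hent, map_mul, map_mul, hc, max_mul_mul_right]
  have h1 : ordBot681 (g * z) = ordBot681 g + 1 := by
    unfold ordBot681
    rw [hb, WithZero.log_mul (bot_ne_zero681 g) WithZero.exp_ne_zero, WithZero.log_exp]
    ring
  have h2 : ordTop681 (g * z) = ordTop681 g + 1 := by omega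
  unfold princ681
  rw [h1, h2, zpow_add_one₀ hz₁, zpow_add_one₀ hz₂,
    show ordBot681 g + 1 - (ordTop681 g + 1) = ordBot681 g - ordTop681 g by ring]
  ring

/-! ## Left translation of the explicit system -/

theorem entryMax_mul_left_le681 (κ g : GL (Fin 2) k) (hκ : InK κ) :
    entryMax (κ * g) ≤ entryMax g := by
  rw [entryMax_le_iff]
  intro i j
  rw [Units.val_mul, Matrix.mul_apply]
  refine Valuation.map_sum_le _ (fun l _ => ?_)
  rw [map_mul]
  calc Valued.v ((κ : Matrix (Fin 2) (Fin 2) k) i l) * Valued.v ((g : Matrix (Fin 2) (Fin 2) k) l j)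
      ≤ 1 * entryMax g := mul_le_mul' (hκ.1 i l) (le_entryMax g l j)
    _ = entryMax g := one_mul _

theorem entryMax_mul_left681 (κ g : GL (Fin 2) k) (hκ : InK κ) :
    entryMax (κ * g) = entryMax g := by
  refine le_antisymm (entryMax_mul_left_le681 κ g hκ) ?_
  have := entryMax_mul_left_le681 κ⁻¹ (κ * g) (inK_inv hκ)
  simpa using this

theorem cartan_mul_left681 (κ g : GL (Fin 2) k) (hκ : InK κ) : cartan (κ * g) = cartan g := by
  unfold cartan
  rw [entryMax_mul_left681 κ g hκ, Units.val_mul, Matrix.det_mul, map_mul,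
    ((inK_iff κ).1 hκ).2, one_mul]

theorem sum_Idx_left681 (D : ResData k) (Ψ : GL (Fin 2) k → ℂ)
    (hΨ : ∀ u g : GL (Fin 2) k, InK u → Ψ (g * u) = Ψ g) (κ : GL (Fin 2) k) (hκ : InK κ) :
    ∑ x ∈ D.Idx 1, Ψ (κ * D.fam 0 x) = ∑ x ∈ D.Idx 1, Ψ (D.fam 0 x) := by
  refine sum_eq_of_systems (D.Idx 1) (D.Idx 1) (fun x => κ * D.fam 0 x) (D.fam 0) Ψ hΨ
    ?_ ?_ ?_ ?_
  · intro a ha
    refine D.fam_cover 0 1 (κ * D.fam 0 a) ?_
    rw [cartan_mul_left681 κ _ hκ, D.cartan_fam 0 ha]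
  · intro b hb
    obtain ⟨a, ha, hK⟩ := D.fam_cover 0 1 (κ⁻¹ * D.fam 0 b) (by
      rw [cartan_mul_left681 κ⁻¹ _ (inK_inv hκ), D.cartan_fam 0 hb])
    refine ⟨a, ha, ?_⟩
    have e : (κ * D.fam 0 a)⁻¹ * D.fam 0 b = (D.fam 0 a)⁻¹ * (κ⁻¹ * D.fam 0 b) := by group
    rw [e]
    exact hK
  · intro a ha a' ha' hK
    have e : (κ * D.fam 0 a)⁻¹ * (κ * D.fam 0 a') = (D.fam 0 a)⁻¹ * D.fam 0 a' := by group
    rw [e] at hK
    exact D.fam_inj 0 ha ha' hK
  · intro b hb b' hb' hK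
    exact D.fam_inj 0 hb hb' hK

theorem explicit_eq_sum681 (D : ResData k) (Φ : GL (Fin 2) k → ℂ) (g : GL (Fin 2) k) :
    Φ (g * D.um 0 1 0) + ∑ d ∈ D.T, Φ (g * D.um 1 0 d) = ∑ x ∈ D.Idx 1, Φ (g * D.fam 0 x) := by
  rw [D.sum_Idx_fam_zero, D.Pprim_eq_Aall_of_le_one Φ 1 le_rfl, D.Aall_one]

/-! ## The Hecke eigenvalue -/

theorem princ_hT_upper681 (D : ResData k) (w z₁ z₂ : ℂ) (hw : w ^ 2 = (D.T.card : ℂ))
    (hw0 : w ≠ 0) (hz₁ : z₁ ≠ 0) (hz₂ : z₂ ≠ 0) (b : GL (Fin 2) k)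
    (hb : (b : Matrix (Fin 2) (Fin 2) k) 1 0 = 0) :
    princ681 w z₁ z₂ (b * D.um 0 1 0) + ∑ d ∈ D.T, princ681 w z₁ z₂ (b * D.um 1 0 d)
      = w * (z₁ + z₂) * princ681 w z₁ z₂ b := by
  have hbot : bot681 b = Valued.v ((b : Matrix (Fin 2) (Fin 2) k) 1 1) := by
    unfold bot681
    rw [hb, map_zero]
    exact max_eq_right zero_le'
  have h1 : bot681 (b * D.um 0 1 0) = bot681 b * WithZero.exp (-(1 : ℤ)) := by
    rw [hbot]
    unfold bot681
    rw [Units.val_mul, D.um_val]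
    simp only [Matrix.mul_apply, Fin.sum_univ_two, Matrix.of_apply, Matrix.cons_val',
      Matrix.cons_val_zero, Matrix.cons_val_one, Matrix.cons_val_fin_one, hb, zero_mul,
      mul_zero, add_zero, zero_add, map_zero, pow_one, map_mul, D.hϖ]
    exact max_eq_right zero_le'
  have h2 : ∀ d : k, bot681 (b * D.um 1 0 d) = bot681 b := by
    intro d
    rw [hbot]
    unfold bot681
    rw [Units.val_mul, D.um_val]
    simp only [Matrix.mul_apply, Fin.sum_univ_two, Matrix.of_apply, Matrix.cons_val',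
      Matrix.cons_val_zero, Matrix.cons_val_one, Matrix.cons_val_fin_one, hb, zero_mul,
      mul_zero, add_zero, zero_add, map_zero, pow_zero, mul_one]
    exact max_eq_right zero_le'
  have hd1 : Valued.v (D.um 0 1 0 : Matrix (Fin 2) (Fin 2) k).det = WithZero.exp (-(1 : ℤ)) := by
    rw [D.val_det_um]
    rfl
  have hd2 : ∀ d : k,
      Valued.v (D.um 1 0 d : Matrix (Fin 2) (Fin 2) k).det = WithZero.exp (-(1 : ℤ)) := by
    intro d
    rw [D.val_det_um]
    rfl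
  rw [princ_down681 w z₁ z₂ hw0 hz₂ b _ hd1 h1,
    Finset.sum_congr rfl (fun d _ => princ_same681 w z₁ z₂ hw0 hz₁ b _ (hd2 d) (h2 d)),
    Finset.sum_const, nsmul_eq_mul, ← hw]
  field_simp
  ring

/-- `Φ_z` is an eigenfunction of `T` and `S`. -/
theorem isEig_princ681 (D : ResData k) (w z₁ z₂ : ℂ) (hw : w ^ 2 = (D.T.card : ℂ))
    (hw0 : w ≠ 0) (hz₁ : z₁ ≠ 0) (hz₂ : z₂ ≠ 0) :
    IsEig263 D (princ681 w z₁ z₂) (w * (z₁ + z₂)) (z₁ * z₂) := by
  refine ⟨princ_rinv681 w z₁ z₂, fun g => ?_, fun g => ?_⟩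
  · refine princ_scalar681 w z₁ z₂ hz₁ hz₂ (D.sc 1) D.ϖ D.hϖ ?_ g
    rw [ResData.sc_val, zpow_one]
    ext i j
    fin_cases i <;> fin_cases j <;> simp
  · obtain ⟨κ₁, hκ₁, h10⟩ := exists_lower_zero g
    have hinv := princ_rinv681 (k := k) w z₁ z₂
    have hΨ : ∀ u h : GL (Fin 2) k, InK u →
        (fun h => princ681 w z₁ z₂ (g * κ₁ * h)) (h * u)
          = (fun h => princ681 w z₁ z₂ (g * κ₁ * h)) h := by
      intro u h hu
      show princ681 w z₁ z₂ (g * κ₁ * (h * u)) = princ681 w z₁ z₂ (g * κ₁ * h)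
      rw [← mul_assoc]
      exact hinv u _ hu
    have key := sum_Idx_left681 D (fun h => princ681 w z₁ z₂ (g * κ₁ * h)) hΨ κ₁⁻¹
      (inK_inv hκ₁)
    have e1 : ∀ x, g * κ₁ * (κ₁⁻¹ * D.fam 0 x) = g * D.fam 0 x := by
      intro x
      group
    simp only [e1] at key
    rw [explicit_eq_sum681, key, ← explicit_eq_sum681,
      princ_hT_upper681 D w z₁ z₂ hw hw0 hz₁ hz₂ (g * κ₁) h10, hinv κ₁ g hκ₁]

end Fermat.Agent.LT.T3.H681

end
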