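import Fermat.Agent.LT.T3.H681.SatakeInj

/-!
# Row LT, tower T3, asset (helper681), OFF-MAIN -- part 7: bridge B2 (split place)

Bridge B2 of hint #18148 (helper797): the T3 pair relation of a CONVOLUTION.  `φ, ψ`
bi-`GL₂(𝒪_v)`-invariant with finite systems of representatives and eigen relations for `A₁, A₂`,
`χ = φ * ψ` in the sense of `T6.IsConv (InU 0)`, `A` finitely supported with
`laurent A = laurent A₁ · laurent A₂` on `(ℂˣ)²` (e.g. `A = convCoef681 A₁ A₂`):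

    conv_pair681 : IsSatakePair v χ A.

Abstract part (any valued field): `conv_eq_sum681` (the convolution is the sum over ANY system of
representatives of `φ`), `conv_rinv681`, `conv_linv681`, `conv_rep681`, `conv_acts681` (Fubini).
-/

set_option autoImplicit false
set_option linter.unusedSectionVars false

open scoped Classical

open IsDedekindDomain NumberField MeasureTheory

noncomputable section

namespace Fermat.Agent.LT.T3.H681

open Fermat.Agent.LT.T6 Fermat.Agent.LT.T6.H305 Fermat.Agent.LT.T3.AS Fermat.Agent.LT.T3.H263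

section Abstract

variable {k : Type} [Field k] [Valued k Γ₀]

/-- Every finite set of cosets has a system of pairwise inequivalent representatives. -/
theorem exists_ineq_cover681 (P : Finset (GL (Fin 2) k)) :
    ∃ R : Finset (GL (Fin 2) k), IsIneq263 R ∧
      ∀ g : GL (Fin 2) k, (∃ p ∈ P, InK (p⁻¹ * g)) → ∃ h ∈ R, InK (h⁻¹ * g) := by
  induction P using Finset.induction_on with
  | empty =>
    refine ⟨∅, ?_, ?_⟩
    · intro h hh
      simp at hh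
    · rintro g ⟨p, hp, _⟩
      simp at hp
  | insert a s _ ih =>
    obtain ⟨R₀, hR₀, hcov₀⟩ := ih
    have hsing : IsIneq263 ({a} : Finset (GL (Fin 2) k)) := by
      intro h hh h' hh' _
      rw [Finset.mem_singleton] at hh hh'
      rw [hh, hh']
    obtain ⟨R, hR, hcov⟩ := exists_rep_merge263 R₀ {a} hR₀ hsing
    refine ⟨R, hR, ?_⟩
    rintro g ⟨p, hp, hK⟩
    rw [Finset.mem_insert] at hp
    rcases hp with rfl | hp
    · exact hcov g (Or.inr ⟨p, Finset.mem_singleton_self p, hK⟩)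
    · exact hcov g (Or.inl (hcov₀ g ⟨p, hp, hK⟩))

/-- The integrand of the convolution. -/
def convInt681 (φ ψ : GL (Fin 2) k → ℂ) (g h : GL (Fin 2) k) : ℂ := φ h * ψ (h⁻¹ * g)

theorem convInt_rinv681 {φ ψ : GL (Fin 2) k → ℂ} (hφ : IsRInv263 φ) (hψ : IsLInv263 ψ)
    (g : GL (Fin 2) k) : IsRInv263 (convInt681 φ ψ g) := by
  intro u h hu
  unfold convInt681
  rw [hφ u h hu]
  have e : (h * u)⁻¹ * g = u⁻¹ * (h⁻¹ * g) := by group
  rw [e, hψ u⁻¹ _ (inK_inv hu)]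

theorem sum_filter_ne681 (R : Finset (GL (Fin 2) k)) (F : GL (Fin 2) k → ℂ) :
    ∑ h ∈ R, F h = ∑ h ∈ R.filter (fun h => F h ≠ 0), F h :=
  (Finset.sum_filter_of_ne (fun _ _ hne => hne)).symm

/-- The sum of a right invariant function over two systems of representatives covering its
support. -/
theorem sum_sys_eq681 {F : GL (Fin 2) k → ℂ} (hF : IsRInv263 F) {R R' : Finset (GL (Fin 2) k)}
    (hR : IsRep263 F R) (hR' : IsRep263 F R') : ∑ h ∈ R, F h = ∑ h ∈ R', F h := by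
  have h1 : IsRInv263 (fun _ : GL (Fin 2) k => (1 : ℂ)) := fun _ _ _ => rfl
  have := sum_rep_eq263 hF h1 hR hR' 1
  simpa using this

/-- The convolution is the sum over any system of representatives of `φ`. -/
theorem conv_eq_sum681 {φ ψ χ : GL (Fin 2) k → ℂ} (hφ : IsRInv263 φ) (hψ : IsLInv263 ψ)
    (hconv : IsConv (InU 0) φ ψ χ) (R : Finset (GL (Fin 2) k)) (hR : IsRep263 φ R)
    (g : GL (Fin 2) k) : χ g = ∑ h ∈ R, convInt681 φ ψ g h := by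
  obtain ⟨R₀, h1, h2, h3⟩ := hconv g
  rw [h3]
  have hR₀ : IsRep263 (convInt681 φ ψ g) R₀ := by
    refine ⟨?_, ?_⟩
    · intro h hh h' hh' hK
      refine h1 h hh h' hh' ⟨h⁻¹ * h', (inU_zero_iff _).2 hK, ?_⟩
      group
    · intro h hne
      obtain ⟨h', hh', u, hu, e⟩ := h2 h hne
      refine ⟨h', hh', ?_⟩
      have : h'⁻¹ * h = u := by
        rw [e]
        group
      rw [this]
      exact (inU_zero_iff _).1 hu
  have hR' : IsRep263 (convInt681 φ ψ g) R :=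
    ⟨hR.1, fun h hne => hR.2 h (left_ne_zero_of_mul hne)⟩
  exact sum_sys_eq681 (convInt_rinv681 hφ hψ g) hR₀ hR'

theorem conv_rinv681 {φ ψ χ : GL (Fin 2) k → ℂ} (hφ : IsRInv263 φ) (hψl : IsLInv263 ψ)
    (hψr : IsRInv263 ψ) (hconv : IsConv (InU 0) φ ψ χ) (R : Finset (GL (Fin 2) k))
    (hR : IsRep263 φ R) : IsRInv263 χ := by
  intro u g hu
  rw [conv_eq_sum681 hφ hψl hconv R hR, conv_eq_sum681 hφ hψl hconv R hR]
  refine Finset.sum_congr rfl (fun h _ => ?_)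
  unfold convInt681
  rw [← mul_assoc, hψr u _ hu]

/-- Left translation of a system of representatives of `φ` (left invariant). -/
theorem rep_left681 {φ : GL (Fin 2) k → ℂ} (hφl : IsLInv263 φ) (R : Finset (GL (Fin 2) k))
    (hR : IsRep263 φ R) (κ : GL (Fin 2) k) (hκ : InK κ) :
    IsRep263 φ (R.image (fun h => κ * h)) := by
  refine ⟨?_, ?_⟩
  · intro h hh h' hh' hK
    obtain ⟨a, ha, rfl⟩ := Finset.mem_image.1 hh
    obtain ⟨a', ha', rfl⟩ := Finset.mem_image.1 hh'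
    have e : (κ * a)⁻¹ * (κ * a') = a⁻¹ * a' := by group
    rw [e] at hK
    rw [hR.1 a ha a' ha' hK]
  · intro g hg
    have hg' : φ (κ⁻¹ * g) ≠ 0 := by
      rw [hφl κ⁻¹ g (inK_inv hκ)]
      exact hg
    obtain ⟨a, ha, hK⟩ := hR.2 _ hg'
    refine ⟨κ * a, Finset.mem_image.2 ⟨a, ha, rfl⟩, ?_⟩
    have e : (κ * a)⁻¹ * g = a⁻¹ * (κ⁻¹ * g) := by group
    rw [e]
    exact hK

theorem conv_linv681 {φ ψ χ : GL (Fin 2) k → ℂ} (hφl : IsLInv263 φ) (hφ : IsRInv263 φ)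
    (hψl : IsLInv263 ψ) (hconv : IsConv (InU 0) φ ψ χ) (R : Finset (GL (Fin 2) k))
    (hR : IsRep263 φ R) : IsLInv263 χ := by
  intro κ g hκ
  rw [conv_eq_sum681 hφ hψl hconv _ (rep_left681 hφl R hR κ hκ) (κ * g),
    conv_eq_sum681 hφ hψl hconv R hR g, Finset.sum_image]
  · refine Finset.sum_congr rfl (fun h _ => ?_)
    unfold convInt681
    rw [hφl κ h hκ]
    congr 2
    group
  · intro a _ a' _ h
    exact mul_left_cancel h

/-- A system of representatives covering the products `h g'`, `h ∈ R₁`, `g' ∈ R₂`. -/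
theorem exists_prod_sys681 (R₁ R₂ : Finset (GL (Fin 2) k)) :
    ∃ R : Finset (GL (Fin 2) k), IsIneq263 R ∧
      ∀ h ∈ R₁, ∀ g' ∈ R₂, ∀ g : GL (Fin 2) k, InK ((h * g')⁻¹ * g) → ∃ a ∈ R, InK (a⁻¹ * g) := by
  obtain ⟨R, hR, hcov⟩ := exists_ineq_cover681 (Finset.image₂ (fun h g' => h * g') R₁ R₂)
  refine ⟨R, hR, fun h hh g' hg' g hK => hcov g ⟨h * g', ?_, hK⟩⟩
  exact Finset.mem_image₂.2 ⟨h, hh, g', hg', rfl⟩

theorem conv_rep_of_prod681 {φ ψ χ : GL (Fin 2) k → ℂ} (hφ : IsRInv263 φ) (hψl : IsLInv263 ψ)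
    (hconv : IsConv (InU 0) φ ψ χ) (R₁ R₂ R : Finset (GL (Fin 2) k)) (hR₁ : IsRep263 φ R₁)
    (hR₂ : IsRep263 ψ R₂) (hR : IsIneq263 R)
    (hcov : ∀ h ∈ R₁, ∀ g' ∈ R₂, ∀ g : GL (Fin 2) k, InK ((h * g')⁻¹ * g) →
      ∃ a ∈ R, InK (a⁻¹ * g)) : IsRep263 χ R := by
  refine ⟨hR, fun g hg => ?_⟩
  rw [conv_eq_sum681 hφ hψl hconv R₁ hR₁ g] at hg
  obtain ⟨h, hh, hne⟩ := Finset.exists_ne_zero_of_sum_ne_zero hg
  have hne' : ψ (h⁻¹ * g) ≠ 0 := right_ne_zero_of_mul hne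
  obtain ⟨g', hg', hK⟩ := hR₂.2 _ hne'
  refine hcov h hh g' hg' g ?_
  have e : (h * g')⁻¹ * g = g'⁻¹ * (h⁻¹ * g) := by group
  rw [e]
  exact hK

/-- **Fubini.**  The convolution acts by the product of the scalars. -/
theorem conv_acts681 {φ ψ χ Φ : GL (Fin 2) k → ℂ} (hφ : IsRInv263 φ) (hψl : IsLInv263 ψ)
    (hψr : IsRInv263 ψ) (hΦ : IsRInv263 Φ) (hconv : IsConv (InU 0) φ ψ χ)
    (R₁ R₂ R : Finset (GL (Fin 2) k)) (hR₁ : IsRep263 φ R₁) (hR₂ : IsRep263 ψ R₂)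
    (hR : IsIneq263 R)
    (hcov : ∀ h ∈ R₁, ∀ g' ∈ R₂, ∀ g : GL (Fin 2) k, InK ((h * g')⁻¹ * g) →
      ∃ a ∈ R, InK (a⁻¹ * g))
    (c₁ c₂ : ℂ) (y : GL (Fin 2) k)
    (E₁ : ∑ h ∈ R₁, φ h * Φ (y * h) = c₁ * Φ y)
    (E₂ : ∀ y' : GL (Fin 2) k, ∑ g' ∈ R₂, ψ g' * Φ (y' * g') = c₂ * Φ y') :
    ∑ g ∈ R, χ g * Φ (y * g) = c₁ * c₂ * Φ y := by
  have inner : ∀ h ∈ R₁, ∑ g ∈ R, ψ (h⁻¹ * g) * Φ (y * g) = c₂ * Φ (y * h) := by
    intro h hh
    have hΨ : IsRInv263 (fun g => ψ (h⁻¹ * g) * Φ (y * g)) := by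
      intro u g hu
      show ψ (h⁻¹ * (g * u)) * Φ (y * (g * u)) = ψ (h⁻¹ * g) * Φ (y * g)
      rw [← mul_assoc, hψr u _ hu, ← mul_assoc, hΦ u _ hu]
    rw [← E₂ (y * h), sum_filter_ne681 R, sum_filter_ne681 R₂]
    have key := sum_eq_of_systems
      (R.filter (fun g => ψ (h⁻¹ * g) * Φ (y * g) ≠ 0))
      (R₂.filter (fun g' => ψ g' * Φ (y * h * g') ≠ 0))
      id (fun g' => h * g') (fun g => ψ (h⁻¹ * g) * Φ (y * g)) hΨ ?_ ?_ ?_ ?_
    · rw [show (∑ g ∈ R.filter (fun g => ψ (h⁻¹ * g) * Φ (y * g) ≠ 0),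
          ψ (h⁻¹ * g) * Φ (y * g))
        = ∑ a ∈ R.filter (fun g => ψ (h⁻¹ * g) * Φ (y * g) ≠ 0),
          (fun g => ψ (h⁻¹ * g) * Φ (y * g)) (id a) from rfl, key]
      refine Finset.sum_congr rfl (fun g' _ => ?_)
      show ψ (h⁻¹ * (h * g')) * Φ (y * (h * g')) = ψ g' * Φ (y * h * g')
      rw [inv_mul_cancel_left, mul_assoc]
    · intro a ha
      rw [Finset.mem_filter] at ha
      have hne : ψ (h⁻¹ * a) ≠ 0 := left_ne_zero_of_mul ha.2
      obtain ⟨b, hb, hK⟩ := hR₂.2 _ hne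
      have hK' : InK ((h * b)⁻¹ * id a) := by
        have e : (h * b)⁻¹ * id a = b⁻¹ * (h⁻¹ * a) := by
          show (h * b)⁻¹ * a = b⁻¹ * (h⁻¹ * a)
          group
        rw [e]
        exact hK
      refine ⟨b, Finset.mem_filter.2 ⟨hb, ?_⟩, hK'⟩
      have e1 : ψ (h⁻¹ * a) * Φ (y * a) = ψ (h⁻¹ * (h * b)) * Φ (y * (h * b)) :=
        rinv_of_coset263 hΨ hK'
      have e2 : ψ (h⁻¹ * (h * b)) * Φ (y * (h * b)) = ψ b * Φ (y * h * b) := by
        rw [inv_mul_cancel_left, mul_assoc]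
      rw [← e2, ← e1]
      exact ha.2
    · intro b hb
      rw [Finset.mem_filter] at hb
      obtain ⟨a, ha, hK⟩ := hcov h hh b hb.1 (h * b) (by
        rw [inv_mul_cancel]
        exact inK_one)
      have hK' : InK ((h * b)⁻¹ * a) := inK_symm263 hK
      refine ⟨a, Finset.mem_filter.2 ⟨ha, ?_⟩, hK⟩
      have e1 : ψ (h⁻¹ * a) * Φ (y * a) = ψ (h⁻¹ * (h * b)) * Φ (y * (h * b)) :=
        rinv_of_coset263 hΨ hK'
      have e2 : ψ (h⁻¹ * (h * b)) * Φ (y * (h * b)) = ψ b * Φ (y * h * b) := by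
        rw [inv_mul_cancel_left, mul_assoc]
      show ψ (h⁻¹ * a) * Φ (y * a) ≠ 0
      rw [e1, e2]
      exact hb.2
    · intro a ha a' ha' hK
      exact hR a (Finset.mem_filter.1 ha).1 a' (Finset.mem_filter.1 ha').1 hK
    · intro b hb b' hb' hK
      have e : (h * b)⁻¹ * (h * b') = b⁻¹ * b' := by group
      rw [e] at hK
      exact hR₂.1 b (Finset.mem_filter.1 hb).1 b' (Finset.mem_filter.1 hb').1 hK
  have step : ∀ g ∈ R, χ g * Φ (y * g) = ∑ h ∈ R₁, φ h * (ψ (h⁻¹ * g) * Φ (y * g)) := by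
    intro g _
    rw [conv_eq_sum681 hφ hψl hconv R₁ hR₁ g, Finset.sum_mul]
    refine Finset.sum_congr rfl (fun h _ => ?_)
    unfold convInt681
    ring
  rw [Finset.sum_congr rfl step, Finset.sum_comm]
  have step2 : ∀ h ∈ R₁, ∑ g ∈ R, φ h * (ψ (h⁻¹ * g) * Φ (y * g)) = c₂ * (φ h * Φ (y * h)) := by
    intro h hh
    rw [← Finset.mul_sum, inner h hh]
    ring
  rw [Finset.sum_congr rfl step2, ← Finset.mul_sum, E₁]
  ring

end Abstract

section Pair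

variable {K : Type} [Field K] [NumberField K] (v : HeightOneSpectrum (𝓞 K))

theorem linv_of_biInt681 {f : GL (Fin 2) (v.adicCompletion K) → ℂ} (h : IsBiIntInv v f) :
    IsLInv263 f := by
  intro u g hu
  have := h u 1 g ((isIntGL_iff263 v u).2 hu) ((isIntGL_iff263 v 1).2 inK_one)
  rwa [mul_one] at this

theorem rinv_of_biInt681 {f : GL (Fin 2) (v.adicCompletion K) → ℂ} (h : IsBiIntInv v f) :
    IsRInv263 f := by
  intro u g hu
  have := h 1 u g ((isIntGL_iff263 v 1).2 inK_one) ((isIntGL_iff263 v u).2 hu)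
  rwa [one_mul] at this

theorem biInt_of_inv681 {f : GL (Fin 2) (v.adicCompletion K) → ℂ} (hl : IsLInv263 f)
    (hr : IsRInv263 f) : IsBiIntInv v f := by
  intro κ κ' g hκ hκ'
  rw [hr κ' _ ((isIntGL_iff263 v κ').1 hκ'), hl κ g ((isIntGL_iff263 v κ).1 hκ)]

/-- **Bridge B2 (convolution).** -/
theorem conv_pair681 (φ ψ χ : GL (Fin 2) (v.adicCompletion K) → ℂ) (A₁ A₂ A : ℤ × ℤ → ℂ)
    (hA : (Function.support A).Finite)
    (hφ : IsBiIntInv v φ) (hφrep : ∃ R, IsRepSys v φ R) (hφe : HasSatakeEigen v φ A₁)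
    (hψ : IsBiIntInv v ψ) (hψrep : ∃ R, IsRepSys v ψ R) (hψe : HasSatakeEigen v ψ A₂)
    (hconv : IsConv (InU 0) φ ψ χ)
    (hL : ∀ z₁ z₂ : ℂ, z₁ ≠ 0 → z₂ ≠ 0 →
      laurent A z₁ z₂ = laurent A₁ z₁ z₂ * laurent A₂ z₁ z₂) :
    IsSatakePair v χ A := by
  obtain ⟨R₁, hR₁'⟩ := hφrep
  obtain ⟨R₂, hR₂'⟩ := hψrep
  have hR₁ := (isRepSys_iff263 v φ R₁).1 hR₁'
  have hR₂ := (isRepSys_iff263 v ψ R₂).1 hR₂'
  have hφl := linv_of_biInt681 v hφ
  have hφr := rinv_of_biInt681 v hφ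
  have hψl := linv_of_biInt681 v hψ
  have hψr := rinv_of_biInt681 v hψ
  obtain ⟨R, hR, hcov⟩ := exists_prod_sys681 R₁ R₂
  have hχrep : IsRep263 χ R := conv_rep_of_prod681 hφr hψl hconv R₁ R₂ R hR₁ hR₂ hR hcov
  have hχr : IsRInv263 χ := conv_rinv681 hφr hψl hψr hconv R₁ hR₁
  have hχl : IsLInv263 χ := conv_linv681 hφl hφr hψl hconv R₁ hR₁
  refine satakeInj681 v χ A hA (biInt_of_inv681 v hχl hχr)
    ⟨R, (isRepSys_iff263 v χ R).2 hχrep⟩ ?_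
  intro Φ₀ a b z₁ z₂ hΦ hz₁ hz₂ hb R' hR' y
  have hz₁0 : z₁ ≠ 0 := by
    intro h
    apply hb
    rw [← hz₂, h, zero_mul]
  have hz₂0 : z₂ ≠ 0 := by
    intro h
    apply hb
    rw [← hz₂, h, mul_zero]
  have hΦr : IsRInv263 Φ₀ := fun u g hu => hΦ.right_inv u g ((isIntGL_iff263 v u).2 hu)
  rw [sum_rep_eq263 hχr hΦr ((isRepSys_iff263 v χ R').1 hR') hχrep y,
    conv_acts681 hφr hψl hψr hΦr hconv R₁ R₂ R hR₁ hR₂ hR hcov (laurent A₁ z₁ z₂)
      (laurent A₂ z₁ z₂) y (hφe Φ₀ a b z₁ z₂ hΦ hz₁ hz₂ hb R₁ hR₁' y)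
      (fun y' => hψe Φ₀ a b z₁ z₂ hΦ hz₁ hz₂ hb R₂ hR₂' y'),
    hL z₁ z₂ hz₁0 hz₂0]

end Pair

end Fermat.Agent.LT.T3.H681

end
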