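import Fermat.Agent.LT.T3.H263.SatakeLoc
import Fermat.Agent.LT.T3.H681.SatLaurent
import Fermat.Agent.LT.T3.H681.SatCartan
import Fermat.Agent.LT.T3.H681.SatPrincipal

/-!
# Row LT, tower T3, asset `SatakeInjC` (helper681), OFF-MAIN -- part 4: the statement

Hint #18248 of helper797 (local bridges B1 / B2 of the construction nodes `ConstrC`,
`ConstrQRC`): in the vocabulary of `LT/T3/H736/ASSpec.lean` (helper736), VERBATIM,

    satakeInj681 : (Function.support A).Finite → IsBiIntInv v f₀ → (∃ R, IsRepSys v f₀ R) →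
        HasSatakeEigen v f₀ A → IsSatakePair v f₀ A

i.e. for a bi-`GL₂(𝒪_v)`-invariant function with a finite system of representatives the EIGEN
field alone gives the whole Satake pair (the `N`-integral comes for free).  `A` need not be
symmetric in the hypothesis (it is then symmetric a posteriori).

Proof.  `f₀` is a finite linear combination of the `T_{n,m}` of helper263 (Cartan decomposition,
part 2), so it has a Satake pair `(f₀, A')`.  The spherical vector `Φ_z` of the unramified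
principal series (part 3) is an `IsLocEigen` function with `Φ_z(1) = 1` for ALL `z₁ z₂ ≠ 0`, so
the Laurent polynomials of `A` and `A'` agree on `(ℂˣ)²`, hence `A = A'` (part 1).

Also: `isLocEigen_princ681` (a non-zero `IsLocEigen` function for every pair of parameters) and
`isCosetSys_of_loc681` (every `IsLocCosetSys` is a `T6.IsCosetSys (1, 0)`).
-/

set_option autoImplicit false
set_option linter.unusedSectionVars false

open scoped Classical

open IsDedekindDomain NumberField MeasureTheory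

noncomputable section

namespace Fermat.Agent.LT.T3.H681

open Fermat.Agent.LT.T6 Fermat.Agent.LT.T6.H305 Fermat.Agent.LT.T3.AS Fermat.Agent.LT.T3.H263

variable {K : Type} [Field K] [NumberField K] (v : HeightOneSpectrum (𝓞 K))

/-- Every local Hecke coset system is a full system of representatives of
`GL₂(𝒪) diag(ϖ, 1) GL₂(𝒪) / GL₂(𝒪)`. -/
theorem isCosetSys_of_loc681 (D : ResData (v.adicCompletion K))
    (hD : D.T.card = Ideal.absNorm v.asIdeal) (H : Finset (GL (Fin 2) (v.adicCompletion K)))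
    (hH : IsLocCosetSys v H) : IsCosetSys ((1 : ℤ), (0 : ℤ)) H := by
  obtain ⟨hcard, hint, hne⟩ := hH
  have hEl := isLocCosetSys263 v D hD
  have hEc : IsCosetSys ((1 : ℤ), (0 : ℤ)) ((D.Idx 1).image (D.fam 0)) :=
    D.isCosetSys_image 0 1 _ (by simp)
  have hcart : ∀ h ∈ H, cartan h = ((1 : ℤ), (0 : ℤ)) := by
    intro h hh
    obtain ⟨h1, h2⟩ := hint h hh
    have hle : entryMax h ≤ 1 := (entryMax_le_iff h 1).2 (fun i j => h1 i j)
    have hlog := log_det_le681 h
    rw [h2, WithZero.log_exp] at hlog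
    have hle' : WithZero.log (entryMax h) ≤ 0 := by
      rw [WithZero.log_le_iff_le_exp (entryMax_ne_zero h), WithZero.exp_zero]
      exact hle
    have h0 : WithZero.log (entryMax h) = 0 := by omega
    have hmax : entryMax h = 1 := by
      rw [← WithZero.exp_log (entryMax_ne_zero h), h0, WithZero.exp_zero]
    have := (cartan_eq_nat_iff h 1).2 ⟨hmax, by rw [h2]; simp⟩
    rw [this]
    simp
  have hineq : ∀ h ∈ H, ∀ h' ∈ H, InU 0 (h⁻¹ * h') → h = h' := by
    intro h hh h' hh' hU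
    by_contra hcon
    exact hne h hh h' hh' hcon (fun i j => ((inU_zero_iff _).1 hU).1 i j)
  refine ⟨hcart, hineq, ?_⟩
  -- pigeonhole
  have hex : ∀ h : GL (Fin 2) (v.adicCompletion K), ∃ e : GL (Fin 2) (v.adicCompletion K),
      h ∈ H → e ∈ (D.Idx 1).image (D.fam 0) ∧ InK (e⁻¹ * h) := by
    intro h
    by_cases hh : h ∈ H
    · obtain ⟨e, he, hU⟩ := hEc.2.2 h (hcart h hh)
      exact ⟨e, fun _ => ⟨he, (inU_zero_iff _).1 hU⟩⟩
    · exact ⟨1, fun h' => absurd h' hh⟩
  choose φ hφ using hex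
  have hinj : Set.InjOn φ (H : Set (GL (Fin 2) (v.adicCompletion K))) := by
    intro h hh h' hh' heq
    have h1 := (hφ h hh).2
    have h2 := (hφ h' hh').2
    rw [← heq] at h2
    apply hineq h hh h' hh'
    rw [inU_zero_iff]
    exact inK_trans263 (inK_symm263 h1) h2
  have himg : H.image φ = (D.Idx 1).image (D.fam 0) := by
    apply Finset.eq_of_subset_of_card_le
    · intro e he
      obtain ⟨h, hh, rfl⟩ := Finset.mem_image.1 he
      exact (hφ h hh).1
    · rw [Finset.card_image_of_injOn hinj, hcard, hEl.1]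
  intro g hg
  obtain ⟨e, he, hU⟩ := hEc.2.2 g hg
  rw [← himg] at he
  obtain ⟨h, hh, rfl⟩ := Finset.mem_image.1 he
  refine ⟨h, hh, ?_⟩
  rw [inU_zero_iff]
  exact inK_trans263 (inK_symm263 (hφ h hh).2) ((inU_zero_iff _).1 hU)

/-- **A non-zero local eigenfunction for every pair of Satake parameters.** -/
theorem isLocEigen_princ681 (D : ResData (v.adicCompletion K))
    (hD : D.T.card = Ideal.absNorm v.asIdeal) (z₁ z₂ : ℂ) (hz₁ : z₁ ≠ 0) (hz₂ : z₂ ≠ 0) :
    IsLocEigen v (princ681 (sq263 D) z₁ z₂) (z₁ + z₂) (z₁ * z₂) := by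
  have hE := isEig_princ681 D (sq263 D) z₁ z₂ (sq_sq263 D) (sq_ne_zero263 D) hz₁ hz₂
  refine ⟨?_, ?_, ?_⟩
  · intro κ y hκ
    exact hE.inv κ y ((isIntGL_iff263 v κ).1 hκ)
  · intro H hH y
    have hc := isCosetSys_of_loc681 v D hD H hH
    have hs := D.sum_cosetSys 0 1 ((1 : ℤ), (0 : ℤ)) (by simp) H hc
      (fun h => princ681 (sq263 D) z₁ z₂ (y * h)) (by
        intro u g hu
        show princ681 (sq263 D) z₁ z₂ (y * (g * u)) = princ681 (sq263 D) z₁ z₂ (y * g)
        rw [← mul_assoc]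
        exact hE.inv u _ hu)
    rw [hs, ← explicit_eq_sum681, hE.hT y]
    unfold sq263
    rw [hD, mul_assoc]
  · intro z c hc hz y
    exact princ_scalar681 _ z₁ z₂ hz₁ hz₂ z c hc hz y

/-- **`SatakeInj`.**  Bi-invariance, a finite system of representatives and the EIGEN field give
the whole Satake pair. -/
theorem satakeInj681 (f₀ : GL (Fin 2) (v.adicCompletion K) → ℂ) (A : ℤ × ℤ → ℂ)
    (hA : (Function.support A).Finite) (hbi : IsBiIntInv v f₀)
    (hrep : ∃ R : Finset (GL (Fin 2) (v.adicCompletion K)), IsRepSys v f₀ R)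
    (he : HasSatakeEigen v f₀ A) : IsSatakePair v f₀ A := by
  obtain ⟨D, hD⟩ := exists_resData (Fermat.Agent.LT.T6.H176.instLocalC176 K v)
  obtain ⟨R, hR⟩ := hrep
  have h1K : IsIntGL v (1 : GL (Fin 2) (v.adicCompletion K)) := (isIntGL_iff263 v 1).2 inK_one
  have hl : IsLInv263 f₀ := by
    intro u g hu
    have := hbi u 1 g ((isIntGL_iff263 v u).2 hu) h1K
    rwa [mul_one] at this
  have hr : IsRInv263 f₀ := by
    intro u g hu
    have := hbi 1 u g h1K ((isIntGL_iff263 v u).2 hu)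
    rwa [one_mul] at this
  obtain ⟨A', h1, h2⟩ := (mem_pairSub681 D f₀).1
    (mem_pairSub_of_biinv681 D (isCompact_int263 v) hl hr R ((isRepSys_iff263 v f₀ R).1 hR))
  have hpair : IsSatakePair v f₀ A' := isSatakePair_of263 v D hD h1 h2
  have hAA : A = A' := by
    apply laurent2_inj681 A A' hA h1.fin
    intro z₁ z₂ hz₁ hz₂
    have hΦ := isLocEigen_princ681 v D hD z₁ z₂ hz₁ hz₂
    have e1 := he _ (z₁ + z₂) (z₁ * z₂) z₁ z₂ hΦ rfl rfl (mul_ne_zero hz₁ hz₂) R hR 1
    have e2 := hpair.eigen _ (z₁ + z₂) (z₁ * z₂) z₁ z₂ hΦ rfl rfl (mul_ne_zero hz₁ hz₂) R hR 1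
    rw [e1, princ_one681, mul_one, mul_one] at e2
    exact e2
  rw [hAA]
  exact hpair

variable (K)

/-- The Prop of hint #18248 (helper797), in the vocabulary of `ASSpec`. -/
def SatakeInjC681 : Prop :=
  ∀ (v : HeightOneSpectrum (𝓞 K)) (f₀ : GL (Fin 2) (v.adicCompletion K) → ℂ) (A : ℤ × ℤ → ℂ),
    IsSymFin A → IsBiIntInv v f₀ →
    (∃ R : Finset (GL (Fin 2) (v.adicCompletion K)), IsRepSys v f₀ R) →
    HasSatakeEigen v f₀ A → IsSatakePair v f₀ A

theorem satakeInjC681 : SatakeInjC681 K :=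
  fun v f₀ A hA hbi hrep he => satakeInj681 v f₀ A hA.1 hbi hrep he

/-- A non-zero `IsLocEigen` function for every pair of non-zero parameters (value `1` at `1`). -/
theorem exists_locEigen681 (v : HeightOneSpectrum (𝓞 K)) (z₁ z₂ : ℂ) (hz₁ : z₁ ≠ 0)
    (hz₂ : z₂ ≠ 0) :
    ∃ Φ₀ : GL (Fin 2) (v.adicCompletion K) → ℂ,
      IsLocEigen v Φ₀ (z₁ + z₂) (z₁ * z₂) ∧ Φ₀ 1 = 1 := by
  obtain ⟨D, hD⟩ := exists_resData (Fermat.Agent.LT.T6.H176.instLocalC176 K v)
  exact ⟨_, isLocEigen_princ681 v D hD z₁ z₂ hz₁ hz₂, princ_one681 _ _ _⟩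

/-- The coefficient function of a Satake pair is determined by the function: two pairs
`(f₀, A)`, `(f₀, A')` with finitely supported `A`, `A'` have `A = A'`. -/
theorem satakePair_coef_unique681 (v : HeightOneSpectrum (𝓞 K))
    (f₀ : GL (Fin 2) (v.adicCompletion K) → ℂ) (A A' : ℤ × ℤ → ℂ)
    (hA : (Function.support A).Finite) (hA' : (Function.support A').Finite)
    (hrep : ∃ R : Finset (GL (Fin 2) (v.adicCompletion K)), IsRepSys v f₀ R)
    (h : HasSatakeEigen v f₀ A) (h' : HasSatakeEigen v f₀ A') : A = A' := by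
  obtain ⟨D, hD⟩ := exists_resData (Fermat.Agent.LT.T6.H176.instLocalC176 K v)
  obtain ⟨R, hR⟩ := hrep
  apply laurent2_inj681 A A' hA hA'
  intro z₁ z₂ hz₁ hz₂
  have hΦ := isLocEigen_princ681 v D hD z₁ z₂ hz₁ hz₂
  have e1 := h _ (z₁ + z₂) (z₁ * z₂) z₁ z₂ hΦ rfl rfl (mul_ne_zero hz₁ hz₂) R hR 1
  have e2 := h' _ (z₁ + z₂) (z₁ * z₂) z₁ z₂ hΦ rfl rfl (mul_ne_zero hz₁ hz₂) R hR 1
  rw [e1, princ_one681, mul_one, mul_one] at e2
  exact e2

end Fermat.Agent.LT.T3.H681

end
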