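import Fermat.Agent.LT.T3.H681.SatakeInj

/-!
# Row LT, tower T3, asset `SatakeInjC` (helper681), OFF-MAIN -- part 5: spherical functions

Bridge between the T6 form of a spherical function, `fun g => φ (cartan g)` with
`φ : (ℤ × ℤ) →₀ ℂ` dominant, and the T3 form (`IsBiIntInv` + `IsRepSys`):

* `exists_sph_of_biinv681` : a bi-invariant function with a finite system of representatives IS
  `fun g => φ (cartan g)` for a dominant `φ`;
* `sph_biinv681`, `sph_rep681` : conversely;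
* `sph_acts681` : `fun g => φ (cartan g)` acts on an `IsLocEigen` function with parameters
  `z₁, z₂` by `φ.sum fun lam c => c * satake q lam z₁ z₂` (closed `T6.SatakeEigenC`).
-/

set_option autoImplicit false
set_option linter.unusedSectionVars false

open scoped Classical

open IsDedekindDomain NumberField MeasureTheory

noncomputable section

namespace Fermat.Agent.LT.T3.H681

open Fermat.Agent.LT.T6 Fermat.Agent.LT.T6.H305 Fermat.Agent.LT.T3.AS Fermat.Agent.LT.T3.H263

section Abstract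

variable {k : Type} [Field k] [Valued k Γ₀]

theorem cartan_form681 (g : GL (Fin 2) k) :
    cartan g = ((((cartan g).1 - (cartan g).2).toNat : ℤ) + (cartan g).2, (cartan g).2) := by
  have := cartan_le681 g
  ext
  · simp only
    omega
  · rfl

theorem dominant_form681 (lam : ℤ × ℤ) (h : lam.2 ≤ lam.1) :
    lam = (((lam.1 - lam.2).toNat : ℤ) + lam.2, lam.2) := by
  ext
  · simp only
    omega
  · rfl

/-- A bi-invariant function with a finite system of representatives is a function of the Cartan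
invariant. -/
theorem exists_sph_of_biinv681 (D : ResData k) {f : GL (Fin 2) k → ℂ} (hl : IsLInv263 f)
    (hr : IsRInv263 f) (R : Finset (GL (Fin 2) k)) (hR : IsRep263 f R) :
    ∃ φ : (ℤ × ℤ) →₀ ℂ, IsDominant φ ∧ f = fun g => φ (cartan g) := by
  let val : ℤ × ℤ → ℂ := fun lam =>
    if lam ∈ R.image cartan then f (D.sc lam.2 * D.um (lam.1 - lam.2).toNat 0 0) else 0
  have hval : ∀ lam, val lam ≠ 0 → lam ∈ R.image cartan := by
    intro lam h
    by_contra hcon
    apply h
    show (if lam ∈ R.image cartan then _ else (0 : ℂ)) = 0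
    rw [if_neg hcon]
  refine ⟨Finsupp.onFinset (R.image cartan) val hval, ?_, ?_⟩
  · intro lam hlam
    rw [Finsupp.mem_support_iff, Finsupp.onFinset_apply] at hlam
    obtain ⟨h, _, rfl⟩ := Finset.mem_image.1 (hval lam hlam)
    exact cartan_le681 h
  · funext g
    rw [Finsupp.onFinset_apply]
    show f g = if cartan g ∈ R.image cartan then _ else (0 : ℂ)
    split_ifs with hmem
    · exact const_cartan681 D hl hr _ _ g (cartan_form681 g)
    · by_contra h0
      apply hmem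
      obtain ⟨h, hh, hK⟩ := hR.2 g h0
      rw [Finset.mem_image]
      exact ⟨h, hh, (cartan_congr681 hK).symm⟩

theorem sph_rinv681 (φ : (ℤ × ℤ) →₀ ℂ) : IsRInv263 (fun g : GL (Fin 2) k => φ (cartan g)) := by
  intro u g hu
  show φ (cartan (g * u)) = φ (cartan g)
  rw [cartan_mul_right681 g u hu]

theorem sph_linv681 (φ : (ℤ × ℤ) →₀ ℂ) : IsLInv263 (fun g : GL (Fin 2) k => φ (cartan g)) := by
  intro u g hu
  show φ (cartan (u * g)) = φ (cartan g)
  rw [cartan_mul_left681 u g hu]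

/-- The explicit system of representatives of the support of a spherical function. -/
def sphSys681 (D : ResData k) (φ : (ℤ × ℤ) →₀ ℂ) : Finset (GL (Fin 2) k) :=
  φ.support.biUnion (fun lam => (D.Idx (lam.1 - lam.2).toNat).image (D.fam lam.2))

theorem cartan_of_mem_sys681 (D : ResData k) (lam : ℤ × ℤ) (hlam : lam.2 ≤ lam.1)
    {h : GL (Fin 2) k} (hh : h ∈ (D.Idx (lam.1 - lam.2).toNat).image (D.fam lam.2)) :
    cartan h = lam := by
  obtain ⟨x, hx, rfl⟩ := Finset.mem_image.1 hh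
  rw [D.cartan_fam lam.2 hx]
  exact (dominant_form681 lam hlam).symm

theorem sph_rep681 (D : ResData k) (φ : (ℤ × ℤ) →₀ ℂ) (hφ : IsDominant φ) :
    IsRep263 (fun g : GL (Fin 2) k => φ (cartan g)) (sphSys681 D φ) := by
  refine ⟨?_, ?_⟩
  · intro h hh h' hh' hK
    obtain ⟨lam, hlam, hm⟩ := Finset.mem_biUnion.1 hh
    obtain ⟨mu, hmu, hm'⟩ := Finset.mem_biUnion.1 hh'
    have e1 := cartan_of_mem_sys681 D lam (hφ lam hlam) hm
    have e2 := cartan_of_mem_sys681 D mu (hφ mu hmu) hm'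
    have e3 := cartan_congr681 hK
    have e : lam = mu := by rw [← e1, ← e2, e3]
    subst e
    obtain ⟨x, hx, rfl⟩ := Finset.mem_image.1 hm
    obtain ⟨x', hx', rfl⟩ := Finset.mem_image.1 hm'
    rw [D.fam_inj lam.2 hx hx' hK]
  · intro g hg
    have hmem : cartan g ∈ φ.support := Finsupp.mem_support_iff.2 hg
    obtain ⟨x, hx, hK⟩ := D.fam_cover (cartan g).2 ((cartan g).1 - (cartan g).2).toNat g
      (cartan_form681 g)
    exact ⟨_, Finset.mem_biUnion.2 ⟨cartan g, hmem, Finset.mem_image.2 ⟨x, hx, rfl⟩⟩, hK⟩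

/-- The sum over the explicit system. -/
theorem sum_sphSys681 (D : ResData k) (φ : (ℤ × ℤ) →₀ ℂ) (hφ : IsDominant φ)
    (F : GL (Fin 2) k → ℂ) :
    ∑ h ∈ sphSys681 D φ, φ (cartan h) * F h
      = ∑ lam ∈ φ.support, φ lam
          * ∑ h ∈ (D.Idx (lam.1 - lam.2).toNat).image (D.fam lam.2), F h := by
  unfold sphSys681
  rw [Finset.sum_biUnion]
  · refine Finset.sum_congr rfl (fun lam hlam => ?_)
    rw [Finset.mul_sum]
    refine Finset.sum_congr rfl (fun h hh => ?_)
    rw [cartan_of_mem_sys681 D lam (hφ lam hlam) hh]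
  · intro lam hlam mu hmu hne
    rw [Function.onFun, Finset.disjoint_left]
    intro h hh hh'
    apply hne
    rw [← cartan_of_mem_sys681 D lam (hφ lam hlam) hh,
      ← cartan_of_mem_sys681 D mu (hφ mu hmu) hh']

end Abstract

variable {K : Type} [Field K] [NumberField K] (v : HeightOneSpectrum (𝓞 K))

/-- An `IsLocEigen` function satisfies the hypotheses of `T6.SatakeEigenC`: it is an
eigenfunction of every sphere, with eigenvalue the Satake polynomial. -/
theorem locEigen_satake681 {Φ₀ : GL (Fin 2) (v.adicCompletion K) → ℂ} {a b z₁ z₂ : ℂ}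
    (hΦ : IsLocEigen v Φ₀ a b) (hz₁ : z₁ + z₂ = a) (hz₂ : z₁ * z₂ = b) (hb : b ≠ 0)
    (lam : ℤ × ℤ) (hlam : lam.2 ≤ lam.1) (H : Finset (GL (Fin 2) (v.adicCompletion K)))
    (hH : IsCosetSys lam H) (g : GL (Fin 2) (v.adicCompletion K)) :
    ∑ h ∈ H, Φ₀ (g * h) = satake (Ideal.absNorm v.asIdeal) lam z₁ z₂ * Φ₀ g := by
  obtain ⟨D, hD⟩ := exists_resData (Fermat.Agent.LT.T6.H176.instLocalC176 K v)
  have hE := isEig_of_locEigen263 v D hD hΦ
  have hz₁0 : z₁ ≠ 0 := by
    intro h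
    apply hb
    rw [← hz₂, h, zero_mul]
  have hz₂0 : z₂ ≠ 0 := by
    intro h
    apply hb
    rw [← hz₂, h, mul_zero]
  have hinv : ∀ u g : GL (Fin 2) (v.adicCompletion K), InU 0 u → Φ₀ (g * u) = Φ₀ g :=
    fun u g hu => hE.inv u g ((inU_zero_iff u).1 hu)
  have hinvK : ∀ (y : GL (Fin 2) (v.adicCompletion K)) (u g : GL (Fin 2) (v.adicCompletion K)),
      InK u → (fun h => Φ₀ (y * h)) (g * u) = (fun h => Φ₀ (y * h)) g := by
    intro y u g hu
    show Φ₀ (y * (g * u)) = Φ₀ (y * g)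
    rw [← mul_assoc]
    exact hE.inv u _ hu
  refine satakeEigenC305 (v.adicCompletion K) (Ideal.absNorm v.asIdeal)
    (Fermat.Agent.LT.T6.H176.instLocalC176 K v) Φ₀ z₁ z₂ hz₁0 hz₂0 hinv ?_ lam hlam H hH g
  intro mu hmu H' hH' y
  rcases hmu with rfl | rfl
  · rw [D.sum_cosetSys 0 1 ((1 : ℤ), (0 : ℤ)) (by simp) H' hH' (fun h => Φ₀ (y * h)) (hinvK y),
      ← explicit_eq_sum681, hE.hT y, ← hz₁]
    unfold satake sq263
    rw [hD]
    simp [satPoly]
  · rw [D.sum_cosetSys 1 0 ((1 : ℤ), (1 : ℤ)) (by simp) H' hH' (fun h => Φ₀ (y * h)) (hinvK y),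
      D.sum_Idx_fam Φ₀ b hb hE.hS 1 0 y, D.Pprim_eq_Aall_of_le_one Φ₀ 0 (Nat.zero_le _),
      D.Aall_zero, ← hz₂]
    unfold satake
    simp [satPoly]

/-- **The action of a spherical function on the local eigenfunctions.** -/
theorem sph_acts681 (φ : (ℤ × ℤ) →₀ ℂ) (hφ : IsDominant φ)
    {Φ₀ : GL (Fin 2) (v.adicCompletion K) → ℂ} {a b z₁ z₂ : ℂ}
    (hΦ : IsLocEigen v Φ₀ a b) (hz₁ : z₁ + z₂ = a) (hz₂ : z₁ * z₂ = b) (hb : b ≠ 0)
    (R : Finset (GL (Fin 2) (v.adicCompletion K)))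
    (hR : IsRepSys v (fun g => φ (cartan g)) R) (y : GL (Fin 2) (v.adicCompletion K)) :
    ∑ h ∈ R, φ (cartan h) * Φ₀ (y * h)
      = (φ.sum fun lam c => c * satake (Ideal.absNorm v.asIdeal) lam z₁ z₂) * Φ₀ y := by
  obtain ⟨D, hD⟩ := exists_resData (Fermat.Agent.LT.T6.H176.instLocalC176 K v)
  have hE := isEig_of_locEigen263 v D hD hΦ
  have h1 := sum_rep_eq263 (sph_rinv681 φ) hE.inv ((isRepSys_iff263 v _ R).1 hR)
    (sph_rep681 D φ hφ) y
  rw [h1, sum_sphSys681 D φ hφ (fun h => Φ₀ (y * h)), Finsupp.sum, Finset.sum_mul]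
  refine Finset.sum_congr rfl (fun lam hlam => ?_)
  rw [locEigen_satake681 v hΦ hz₁ hz₂ hb lam (hφ lam hlam) _
    (D.isCosetSys_image lam.2 (lam.1 - lam.2).toNat lam (dominant_form681 lam (hφ lam hlam))) y]
  ring

end Fermat.Agent.LT.T3.H681

end
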